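/-
T14 / FI (first inequality) -- Mathlib-only core lemmas.
* `FI.index_le_card_of_separating`: counting lemma (no hom needed).
* `FI.hilbert90_cyclic`: elementary cyclic Hilbert 90 (universe polymorphic).
-/
import Mathlib

set_option autoImplicit false

namespace Fermat.Agent.S14.FI

/-- Counting lemma: if `f : G → X` separates the cosets of `H` (i.e. `f g = f g'` forces
`g⁻¹ * g' ∈ H`) and `X` is finite, then `H` has finite index at most `|X|`. -/
theorem index_le_card_of_separating {G : Type*} [Group G] (H : Subgroup G) {X : Type*} [Finite X]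
    (f : G → X) (hf : ∀ g g' : G, f g = f g' → g⁻¹ * g' ∈ H) :
    H.index ≠ 0 ∧ H.index ≤ Nat.card X := by
  have hinj : Function.Injective (fun q : G ⧸ H => f q.out) := by
    intro q q' h
    have h1 : (q.out)⁻¹ * q'.out ∈ H := hf _ _ h
    have h2 : (QuotientGroup.mk q.out : G ⧸ H) = QuotientGroup.mk q'.out :=
      QuotientGroup.eq.mpr h1
    simpa using h2
  have : Finite (G ⧸ H) := Finite.of_injective _ hinj
  refine ⟨?_, ?_⟩
  · rw [Subgroup.index]
    exact Nat.card_pos.ne'
  · rw [Subgroup.index]
    exact Nat.card_le_card_of_injective _ hinj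

/-- Relative version of the counting lemma: `f` is only defined on (and separates within) `G'`. -/
theorem relIndex_le_card_of_separating {G : Type*} [Group G] (H G' : Subgroup G) {X : Type*}
    [Finite X] (f : G' → X) (hf : ∀ g g' : G', f g = f g' → (g : G)⁻¹ * (g' : G) ∈ H) :
    H.relIndex G' ≠ 0 ∧ H.relIndex G' ≤ Nat.card X := by
  rw [Subgroup.relIndex]
  refine index_le_card_of_separating (H.subgroupOf G') f ?_
  intro g g' h
  rw [Subgroup.mem_subgroupOf]
  simpa using hf g g' h

/-- Elementary cyclic Hilbert 90: if `σ` has order exactly `n` on the field `L` and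
`∏_{i<n} σ^i x = 1`, then `x = y / σ y` for some `y ≠ 0`. -/
theorem hilbert90_cyclic {L : Type*} [Field L] (σ : L ≃+* L) (n : ℕ) (hn : 0 < n)
    (hinj : ∀ i < n, ∀ j < n, σ ^ i = σ ^ j → i = j) (hσ : σ ^ n = 1)
    (x : L) (hx : ∏ i ∈ Finset.range n, (σ ^ i) x = 1) : ∃ y : L, y ≠ 0 ∧ x * σ y = y := by
  classical
  set c : ℕ → L := fun i => ∏ j ∈ Finset.range i, (σ ^ j) x with hc
  set θ : L → L := fun z => ∑ i ∈ Finset.range n, c i * (σ ^ i) z with hθ
  have hc0 : c 0 = 1 := by simp [hc]
  have hcn : c n = 1 := hx
  have hcs : ∀ i, x * σ (c i) = c (i + 1) := by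
    intro i
    simp only [hc]
    rw [Finset.prod_range_succ', map_prod]
    rw [mul_comm]
    congr 1
    · apply Finset.prod_congr rfl
      intro j _
      rw [pow_succ']
      rfl
  have key : ∀ z, x * σ (θ z) = θ z := by
    intro z
    simp only [hθ]
    rw [map_sum, Finset.mul_sum]
    have h1 : ∀ i ∈ Finset.range n, x * σ (c i * (σ ^ i) z) = c (i + 1) * (σ ^ (i + 1)) z := by
      intro i _
      rw [map_mul, ← mul_assoc, hcs, pow_succ']
      rfl
    rw [Finset.sum_congr rfl h1]
    have h2 := Finset.sum_range_succ' (fun i => c i * (σ ^ i) z) n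
    have h3 := Finset.sum_range_succ (fun i => c i * (σ ^ i) z) n
    have h4 : c n * (σ ^ n) z = c 0 * (σ ^ 0) z := by
      rw [hcn, hc0, hσ, pow_zero]
    have := h2.symm.trans h3
    rw [h4] at this
    exact add_right_cancel this
  by_cases hz : ∃ z, θ z ≠ 0
  · obtain ⟨z, hz⟩ := hz
    exact ⟨θ z, hz, key z⟩
  · exfalso
    push Not at hz
    have hli := linearIndependent_monoidHom L L
    let g : Fin n → (L →* L) := fun i => ((σ ^ (i : ℕ) : L ≃+* L) : L →* L)
    have hg : Function.Injective g := by
      intro i j hij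
      apply Fin.ext
      apply hinj i i.2 j j.2
      ext y
      have := DFunLike.congr_fun hij y
      exact this
    have hli' := hli.comp g hg
    rw [Fintype.linearIndependent_iff] at hli'
    have := hli' (fun i => c i) (by
      funext z
      have := hz z
      simp only [hθ] at this
      rw [← Fin.sum_univ_eq_sum_range (fun i => c i * (σ ^ i) z) n] at this
      simpa [g] using this) ⟨0, hn⟩
    rw [hc0] at this
    exact one_ne_zero this

end Fermat.Agent.S14.FI
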