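/-
T14 / FI-u (helper68): Hilbert's theorem 90 for a cyclic group of field automorphisms, in a
universe-polymorphic, Galois-theory-free form (Mathlib's `groupCohomology.exists_div_of_norm_eq_one`
is only available for fields in `Type`), and its integral consequences for number fields.
-/
import Mathlib
import Fermat.Agent.S14.Defs

set_option autoImplicit false

open NumberField
open scoped Pointwise

namespace Fermat.Agent.S14.FI.Hilbert90

section Core

variable {L : Type*} [Field L]

/-- the partial norms `c i = ∏_{j<i} σ^j x` -/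
def partialNorm (σ : L ≃+* L) (x : L) (i : ℕ) : L := ∏ j ∈ Finset.range i, (σ ^ j) x

@[simp] theorem partialNorm_zero (σ : L ≃+* L) (x : L) : partialNorm σ x 0 = 1 := by
  simp [partialNorm]

theorem partialNorm_succ (σ : L ≃+* L) (x : L) (i : ℕ) :
    partialNorm σ x (i + 1) = x * σ (partialNorm σ x i) := by
  have h1 : ∏ j ∈ Finset.range i, (σ ^ (j + 1)) x = σ (partialNorm σ x i) := by
    rw [partialNorm, map_prod]
    refine Finset.prod_congr rfl fun j _ => ?_
    rw [pow_succ']
    rfl
  rw [partialNorm, Finset.prod_range_succ', h1, pow_zero, mul_comm]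
  rfl

/-- **Hilbert 90, core form.**  If `σ` has order `n > 0` and `∏_{i<n} σ^i x = 1` then
`x = y / σ y` for some `y ≠ 0`. -/
theorem exists_ne_zero_mul_eq (σ : L ≃+* L) (n : ℕ) (hn : 0 < n) (hord : orderOf σ = n)
    (x : L) (hx : ∏ i ∈ Finset.range n, (σ ^ i) x = 1) : ∃ y : L, y ≠ 0 ∧ x * σ y = y := by
  classical
  -- the automorphisms `σ^i`, `i < n`, as pairwise distinct monoid homs
  let φ : Fin n → (L →* L) := fun i => ((σ ^ (i : ℕ) : L ≃+* L) : L →+* L)
  have hφinj : Function.Injective φ := by
    intro i j hij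
    have h1 : σ ^ (i : ℕ) = σ ^ (j : ℕ) := by
      ext z
      exact DFunLike.congr_fun hij z
    have := pow_injOn_Iio_orderOf (x := σ) (by rw [Set.mem_Iio, hord]; exact i.2)
      (by rw [Set.mem_Iio, hord]; exact j.2) h1
    exact Fin.ext this
  have hli : LinearIndependent L (fun i : Fin n => (φ i : L → L)) :=
    (linearIndependent_monoidHom L L).comp φ hφinj
  -- the Lagrange resolvent is not identically zero
  have hex : ∃ z : L, ∑ i : Fin n, partialNorm σ x i * (σ ^ (i : ℕ)) z ≠ 0 := by
    by_contra hall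
    push Not at hall
    have h0 : ∑ i : Fin n, partialNorm σ x i • (φ i : L → L) = 0 := by
      funext z
      simp only [Finset.sum_apply, Pi.smul_apply, smul_eq_mul, Pi.zero_apply]
      exact hall z
    have := Fintype.linearIndependent_iff.mp hli (fun i => partialNorm σ x i) h0 ⟨0, hn⟩
    simp at this
  obtain ⟨z, hz⟩ := hex
  refine ⟨_, hz, ?_⟩
  rw [Finset.sum_fin_eq_sum_range] at hz ⊢
  have hsum : ∀ m : ℕ, (∑ i ∈ Finset.range m,
      if h : i < n then partialNorm σ x (⟨i, h⟩ : Fin n) * (σ ^ ((⟨i, h⟩ : Fin n) : ℕ)) z else 0)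
      = ∑ i ∈ Finset.range (min m n), partialNorm σ x i * (σ ^ i) z := by
    intro m
    rw [← Finset.sum_filter_add_sum_filter_not (Finset.range m) (fun i => i < n)]
    have h2 : ∑ i ∈ (Finset.range m).filter (fun i => ¬ i < n),
        (if h : i < n then partialNorm σ x (⟨i, h⟩ : Fin n) * (σ ^ ((⟨i, h⟩ : Fin n) : ℕ)) z
          else 0) = 0 := by
      refine Finset.sum_eq_zero fun i hi => ?_
      rw [Finset.mem_filter] at hi
      rw [dif_neg hi.2]
    rw [h2, add_zero]
    have h3 : (Finset.range m).filter (fun i => i < n) = Finset.range (min m n) := by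
      ext i
      simp [Finset.mem_filter, Finset.mem_range]
    rw [h3]
    refine Finset.sum_congr rfl fun i hi => ?_
    rw [Finset.mem_range, lt_min_iff] at hi
    rw [dif_pos hi.2]
  rw [hsum n, min_self]
  -- the telescoping computation
  rw [map_sum, Finset.mul_sum]
  have h4 : ∀ i ∈ Finset.range n, x * σ (partialNorm σ x i * (σ ^ i) z)
      = partialNorm σ x (i + 1) * (σ ^ (i + 1)) z := by
    intro i _
    rw [map_mul, ← mul_assoc, ← partialNorm_succ, pow_succ']
    rfl
  rw [Finset.sum_congr rfl h4]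
  obtain ⟨k, rfl⟩ : ∃ k, n = k + 1 := ⟨n - 1, by omega⟩
  have h5 : partialNorm σ x (k + 1) = 1 := hx
  have h6 : σ ^ (k + 1) = 1 := by rw [← hord]; exact pow_orderOf_eq_one σ
  rw [Finset.sum_range_succ (fun i => partialNorm σ x (i + 1) * (σ ^ (i + 1)) z) k,
    Finset.sum_range_succ' (fun i => partialNorm σ x i * (σ ^ i) z) k, h5, h6]
  simp

end Core

section Cyclic

/-- in a finite group generated by `σ`, a product over `σ^i`, `i < orderOf σ`, is a product over
the whole group -/
theorem prod_range_orderOf_eq_prod_univ {G : Type*} [Group G] [Fintype G] (σ : G)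
    (hσ : ∀ τ : G, τ ∈ Subgroup.zpowers σ) {M : Type*} [CommMonoid M] (f : G → M) :
    ∏ i ∈ Finset.range (orderOf σ), f (σ ^ i) = ∏ τ, f τ := by
  classical
  have hinj : Set.InjOn (fun i : ℕ => σ ^ i) (Finset.range (orderOf σ) : Set ℕ) := by
    intro i hi j hj hij
    exact pow_injOn_Iio_orderOf (by simpa using hi) (by simpa using hj) hij
  rw [← Finset.prod_image (f := f) hinj]
  congr 1
  apply Finset.eq_univ_of_card
  rw [Finset.card_image_of_injOn hinj, Finset.card_range,
    orderOf_eq_card_of_forall_mem_zpowers hσ, Nat.card_eq_fintype_card]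

end Cyclic

section Field

variable {K L : Type*} [Field K] [Field L] [Algebra K L] [FiniteDimensional K L] [IsGalois K L]

/-- **Hilbert 90** for a cyclic Galois extension, any universe: `N x = 1` implies
`x = y / σ y`. -/
theorem exists_ne_zero_mul_eq_of_norm_eq_one (σ : L ≃ₐ[K] L)
    (hσ : ∀ τ : L ≃ₐ[K] L, τ ∈ Subgroup.zpowers σ) {x : L} (hx : Algebra.norm K x = 1) :
    ∃ y : L, y ≠ 0 ∧ x * σ y = y := by
  classical
  -- translate to the ring automorphism `σ`
  let s : L ≃+* L := (σ : L ≃+* L)
  have hpow : ∀ (i : ℕ) (z : L), (s ^ i) z = (σ ^ i) z := by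
    intro i z
    induction i generalizing z with
    | zero => rfl
    | succ k ih =>
      rw [pow_succ, pow_succ]
      show (s ^ k) (s z) = (σ ^ k) (σ z)
      rw [ih]
      rfl
  have hord : orderOf s = orderOf σ := by
    refine orderOf_eq_orderOf_iff.mpr fun n => ?_
    constructor
    · intro h
      ext z
      have := DFunLike.congr_fun h z
      rw [hpow] at this
      simpa using this
    · intro h
      ext z
      rw [hpow, h]
      rfl
  have hpos : 0 < orderOf σ := orderOf_pos σ
  have hprod : ∏ i ∈ Finset.range (orderOf σ), (s ^ i) x = 1 := by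
    have h1 : ∏ i ∈ Finset.range (orderOf σ), (s ^ i) x
        = ∏ i ∈ Finset.range (orderOf σ), (fun τ : L ≃ₐ[K] L => τ x) (σ ^ i) :=
      Finset.prod_congr rfl fun i _ => hpow i x
    have h2 := prod_range_orderOf_eq_prod_univ σ hσ (fun τ : L ≃ₐ[K] L => τ x)
    rw [h1, h2, ← Algebra.norm_eq_prod_automorphisms, hx, map_one]
  obtain ⟨y, hy0, hy⟩ := exists_ne_zero_mul_eq s (orderOf σ) hpos hord x hprod
  exact ⟨y, hy0, hy⟩

end Field

end Fermat.Agent.S14.FI.Hilbert90
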