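/-
T14 / FI-u, sub-piece PHI (helper68): for `L/K` Galois of prime degree `p`, unramified everywhere,
`σ` a generator of the Galois group: the group `{u ∈ E_L : N u = 1} / {σ v / v}` injects into
the kernel of the extension map `Cl(K) → Cl(L)`; in particular its order is at most the order of
that kernel.
-/
import Mathlib
import Fermat.Agent.S14.Defs
import Fermat.Agent.S14.UnitsHerbrand
import Fermat.Agent.S14.FirstInequality.Core
import Fermat.Agent.S14.FirstInequality.Invariant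
import Fermat.Agent.S14.FirstInequality.Hilbert90

set_option autoImplicit false

open NumberField Module
open scoped Pointwise nonZeroDivisors

namespace Fermat.Agent.S14.FI.Phi

variable {K L : Type*} [Field K] [NumberField K] [Field L] [NumberField L] [Algebra K L]
  [IsGalois K L]

omit [NumberField K] [NumberField L] [IsGalois K L] in
/-- the action on `𝓞 L` is the restriction of the action on `L` -/
theorem coe_smul_int (σ : L ≃ₐ[K] L) (y : 𝓞 L) : ((σ • y : 𝓞 L) : L) = σ (y : L) := rfl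

/-- in a Galois group of prime order every non-trivial element is a generator -/
theorem mem_zpowers_of_ne_one {p : ℕ} (hp : p.Prime) (hdeg : finrank K L = p)
    (σ : L ≃ₐ[K] L) (hσ : σ ≠ 1) (τ : L ≃ₐ[K] L) : τ ∈ Subgroup.zpowers σ := by
  have : FiniteDimensional K L := Module.finite_of_finrank_pos (by rw [hdeg]; exact hp.pos)
  have hcard : Nat.card (L ≃ₐ[K] L) = p := by rw [IsGalois.card_aut_eq_finrank, hdeg]
  have : Fact p.Prime := ⟨hp⟩
  exact mem_zpowers_of_prime_card hcard hσ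

/-- integral Hilbert 90: a unit of norm one is `y / σ y` with `y ∈ 𝓞 L` nonzero -/
theorem exists_int_mul_smul_eq {p : ℕ} (hp : p.Prime) (hdeg : finrank K L = p)
    (σ : L ≃ₐ[K] L) (hσ : σ ≠ 1) (u : (𝓞 L)ˣ) (hu : UH.unitNrm σ p u = 1) :
    ∃ y : 𝓞 L, y ≠ 0 ∧ (u : 𝓞 L) * σ • y = y := by
  have : FiniteDimensional K L := Module.finite_of_finrank_pos (by rw [hdeg]; exact hp.pos)
  -- the norm of `u` is one
  have hnorm : Algebra.norm K (((u : (𝓞 L)ˣ) : 𝓞 L) : L) = 1 := by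
    have h1 := UH.coe_coe_unitNrm hp hdeg σ hσ u
    rw [hu] at h1
    apply (algebraMap K L).injective
    rw [← h1, map_one]
    rfl
  obtain ⟨y', hy'0, hy'⟩ := Hilbert90.exists_ne_zero_mul_eq_of_norm_eq_one σ
    (mem_zpowers_of_ne_one hp hdeg σ hσ) hnorm
  -- clear denominators by a rational integer
  have halg : IsAlgebraic ℤ y' :=
    (IsFractionRing.isAlgebraic_iff ℤ ℚ L).mpr (Algebra.IsAlgebraic.isAlgebraic (R := ℚ) y')
  obtain ⟨d, hd0, hdz⟩ := halg.exists_integral_multiple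
  refine ⟨⟨d • y', hdz⟩, ?_, ?_⟩
  · intro h
    have hz0 : d • y' = 0 := congrArg (fun t : 𝓞 L => (t : L)) h
    rcases smul_eq_zero.mp hz0 with h1 | h1
    · exact hd0 h1
    · exact hy'0 h1
  · apply RingOfIntegers.coe_injective
    show ((u : 𝓞 L) : L) * σ (d • y') = d • y'
    rw [map_zsmul, mul_smul_comm, hy']

omit [NumberField K] [NumberField L] [IsGalois K L] in
/-- `(y)` is stable under `σ` when `u * σ • y = y` with `u` a unit -/
theorem smul_span_singleton_eq (σ : L ≃ₐ[K] L) (u : (𝓞 L)ˣ) (y : 𝓞 L)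
    (hy : (u : 𝓞 L) * σ • y = y) : σ • Ideal.span {y} = Ideal.span {y} := by
  rw [Ideal.smul_closure, Set.smul_set_singleton, Ideal.span_singleton_eq_span_singleton]
  exact ⟨u, by rw [mul_comm]; exact hy⟩

omit [NumberField K] [NumberField L] [IsGalois K L] in
/-- an ideal stable under `σ` is stable under the group generated by `σ` -/
theorem smul_eq_of_mem_zpowers {σ : L ≃ₐ[K] L} {A : Ideal (𝓞 L)} (hA : σ • A = A)
    {τ : L ≃ₐ[K] L} (hτ : τ ∈ Subgroup.zpowers σ) : τ • A = A := by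
  have h1 : σ ∈ MulAction.stabilizer (L ≃ₐ[K] L) A := hA
  have h2 : Subgroup.zpowers σ ≤ MulAction.stabilizer (L ≃ₐ[K] L) A :=
    (Subgroup.zpowers_le).mpr h1
  exact h2 hτ

/-- the data attached to a unit of norm one: `y` with `u = y / σ y` and an ideal `𝔞` of `𝓞 K`
with `𝔞 𝓞_L = (y)` -/
theorem exists_data {p : ℕ} (hp : p.Prime) (hdeg : finrank K L = p)
    (hunr : UnramifiedEverywhere K L) (σ : L ≃ₐ[K] L) (hσ : σ ≠ 1) (u : (𝓞 L)ˣ)
    (hu : UH.unitNrm σ p u = 1) :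
    ∃ (y : 𝓞 L) (𝔞 : (Ideal (𝓞 K))⁰), y ≠ 0 ∧ (u : 𝓞 L) * σ • y = y ∧
      (𝔞 : Ideal (𝓞 K)).map (algebraMap (𝓞 K) (𝓞 L)) = Ideal.span {y} := by
  obtain ⟨y, hy0, hy⟩ := exists_int_mul_smul_eq hp hdeg σ hσ u hu
  have hstab : ∀ τ : L ≃ₐ[K] L, τ • Ideal.span {y} = Ideal.span {y} := fun τ =>
    smul_eq_of_mem_zpowers (smul_span_singleton_eq σ u y hy)
      (mem_zpowers_of_ne_one hp hdeg σ hσ τ)
  have hne : Ideal.span {y} ≠ ⊥ := by
    rw [Ne, Ideal.span_singleton_eq_bot]; exact hy0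
  obtain ⟨𝔞, h𝔞0, h𝔞⟩ := Invariant.exists_map_eq_of_forall_smul_eq hunr _ hne hstab
  exact ⟨y, ⟨𝔞, mem_nonZeroDivisors_of_ne_zero h𝔞0⟩, hy0, hy, h𝔞⟩

omit [IsGalois K L] in
/-- the class of an ideal whose extension is principal lies in the kernel of `Cl(K) → Cl(L)` -/
theorem mk0_mem_ker (𝔞 : (Ideal (𝓞 K))⁰) (y : 𝓞 L)
    (h𝔞 : (𝔞 : Ideal (𝓞 K)).map (algebraMap (𝓞 K) (𝓞 L)) = Ideal.span {y}) :
    ClassGroup.mk0 𝔞 ∈ (ClassGroup.extendedHom (𝓞 K) (𝓞 L)).ker := by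
  rw [MonoidHom.mem_ker, ClassGroup.extendedHom_mk0, ClassGroup.mk0_eq_one_iff]
  show ((𝔞 : Ideal (𝓞 K)).map (algebraMap (𝓞 K) (𝓞 L))).IsPrincipal
  rw [h𝔞]
  exact ⟨⟨y, rfl⟩⟩

omit [NumberField K] [NumberField L] [IsGalois K L] in
theorem smul_algebraMap_int (σ : L ≃ₐ[K] L) (a : 𝓞 K) :
    σ • algebraMap (𝓞 K) (𝓞 L) a = algebraMap (𝓞 K) (𝓞 L) a := by
  apply RingOfIntegers.coe_injective
  show σ (algebraMap (𝓞 K) (𝓞 L) a : L) = _
  have : ((algebraMap (𝓞 K) (𝓞 L) a : 𝓞 L) : L) = algebraMap K L (a : K) := rfl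
  rw [this, AlgEquiv.commutes]
  rfl

omit [NumberField L] [IsGalois K L] in
/-- **separation**: if the ideals attached to `u`, `u'` have the same class then `u⁻¹ u'` is of the
form `σ w / w` -/
theorem separation (σ : L ≃ₐ[K] L) (u u' : (𝓞 L)ˣ) (y y' : 𝓞 L) (𝔞 𝔞' : (Ideal (𝓞 K))⁰)
    (hy0 : y ≠ 0) (hy : (u : 𝓞 L) * σ • y = y) (hy' : (u' : 𝓞 L) * σ • y' = y')
    (h𝔞 : (𝔞 : Ideal (𝓞 K)).map (algebraMap (𝓞 K) (𝓞 L)) = Ideal.span {y})
    (h𝔞' : (𝔞' : Ideal (𝓞 K)).map (algebraMap (𝓞 K) (𝓞 L)) = Ideal.span {y'})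
    (hcl : ClassGroup.mk0 𝔞 = ClassGroup.mk0 𝔞') :
    u⁻¹ * u' ∈ (⊤ : Subgroup (𝓞 L)ˣ).map (UH.unitDlt σ) := by
  obtain ⟨a, a', ha, ha', hab⟩ := ClassGroup.mk0_eq_mk0_iff.mp hcl
  -- extend the relation to `𝓞 L`
  have h1 := congrArg (Ideal.map (algebraMap (𝓞 K) (𝓞 L))) hab
  rw [Ideal.map_mul, Ideal.map_mul, Ideal.map_span, Ideal.map_span, Set.image_singleton,
    Set.image_singleton, h𝔞, h𝔞', Ideal.span_singleton_mul_span_singleton,
    Ideal.span_singleton_mul_span_singleton, Ideal.span_singleton_eq_span_singleton] at h1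
  obtain ⟨w, hw⟩ := h1
  set A := algebraMap (𝓞 K) (𝓞 L) a with hA
  set A' := algebraMap (𝓞 K) (𝓞 L) a' with hA'
  have hA0 : A ≠ 0 := by
    rw [hA, Ne, map_eq_zero_iff _ (FaithfulSMul.algebraMap_injective (𝓞 K) (𝓞 L))]; exact ha
  have hσy0 : σ • y ≠ 0 := by
    intro h
    apply hy0
    rw [← hy, h, mul_zero]
  -- apply `σ` to `A y w = A' y'`
  have hw' : A * σ • y * σ • (w : 𝓞 L) = A' * σ • y' := by
    have := congrArg (fun t => σ • t) hw
    simp only [smul_mul'] at this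
    rw [hA, hA', smul_algebraMap_int, smul_algebraMap_int] at this
    exact this
  -- the key identity `u w = u' σ w`
  have key : (u : 𝓞 L) * w = u' * σ • (w : 𝓞 L) := by
    have e1 : A * σ • y * ((u : 𝓞 L) * w) = A * σ • y * (u' * σ • (w : 𝓞 L)) := by
      calc A * σ • y * ((u : 𝓞 L) * w) = A * ((u : 𝓞 L) * σ • y) * w := by ring
        _ = A * y * w := by rw [hy]
        _ = A' * y' := hw
        _ = A' * ((u' : 𝓞 L) * σ • y') := by rw [hy']
        _ = u' * (A' * σ • y') := by ring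
        _ = u' * (A * σ • y * σ • (w : 𝓞 L)) := by rw [hw']
        _ = A * σ • y * (u' * σ • (w : 𝓞 L)) := by ring
    exact mul_left_cancel₀ (mul_ne_zero hA0 hσy0) e1
  have keyU : u * w = u' * UH.unitAct σ w := by
    apply Units.ext
    rw [Units.val_mul, Units.val_mul, UH.coe_unitAct]
    exact key
  refine ⟨w⁻¹, Subgroup.mem_top _, ?_⟩
  rw [UH.unitDlt_apply, map_inv, div_eq_mul_inv, inv_inv]
  rw [eq_comm, inv_mul_eq_iff_eq_mul]
  calc u' = u' * UH.unitAct σ w * (UH.unitAct σ w)⁻¹ := by rw [mul_inv_cancel_right]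
    _ = u * w * (UH.unitAct σ w)⁻¹ := by rw [keyU]
    _ = u * ((UH.unitAct σ w)⁻¹ * w) := by rw [mul_assoc, mul_comm w]

/-- **(PHI)** `|{u : N u = 1} / {σ v / v}| ≤ |ker (Cl(K) → Cl(L))|` for an unramified cyclic
extension of prime degree. -/
theorem h1_le_card_ker {p : ℕ} (hp : p.Prime) (hdeg : finrank K L = p)
    (hunr : UnramifiedEverywhere K L) (σ : L ≃ₐ[K] L) (hσ : σ ≠ 1) :
    ((⊤ : Subgroup (𝓞 L)ˣ).map (UH.unitDlt σ)).relIndex (⊤ ⊓ (UH.unitNrm σ p).ker) ≠ 0 ∧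
    ((⊤ : Subgroup (𝓞 L)ˣ).map (UH.unitDlt σ)).relIndex (⊤ ⊓ (UH.unitNrm σ p).ker) ≤
      Nat.card (ClassGroup.extendedHom (𝓞 K) (𝓞 L)).ker := by
  classical
  have hu : ∀ g : (⊤ ⊓ (UH.unitNrm σ p).ker : Subgroup (𝓞 L)ˣ), UH.unitNrm σ p (g : (𝓞 L)ˣ) = 1 :=
    fun g => g.2.2
  choose y 𝔞 hy0 hy h𝔞 using fun g : (⊤ ⊓ (UH.unitNrm σ p).ker : Subgroup (𝓞 L)ˣ) =>
    exists_data hp hdeg hunr σ hσ (g : (𝓞 L)ˣ) (hu g)
  let f : (⊤ ⊓ (UH.unitNrm σ p).ker : Subgroup (𝓞 L)ˣ) →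
      (ClassGroup.extendedHom (𝓞 K) (𝓞 L)).ker :=
    fun g => ⟨ClassGroup.mk0 (𝔞 g), mk0_mem_ker (𝔞 g) (y g) (h𝔞 g)⟩
  refine relIndex_le_card_of_separating _ _ f fun g g' hgg' => ?_
  have hcl : ClassGroup.mk0 (𝔞 g) = ClassGroup.mk0 (𝔞 g') := congrArg Subtype.val hgg'
  exact separation σ g g' (y g) (y g') (𝔞 g) (𝔞 g') (hy0 g) (hy g) (hy g') (h𝔞 g) (h𝔞 g') hcl

end Fermat.Agent.S14.FI.Phi
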