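/-
T14 / FI -- (CL): norm map and Galois action on ideal class groups.
* `FI.exists_classGroup_lift`: a monoid hom on nonzero ideals killing principal ideals factors
  through `ClassGroup.mk0`.
* `FI.classNorm K L : ClassGroup (𝓞 L) →* ClassGroup (𝓞 K)`, `classNorm_mk0`.
* `FI.smul0 σ`, `FI.classAct σ : ClassGroup (𝓞 L) →* ClassGroup (𝓞 L)`, `classAct_mk0`.
* `classNorm_classAct`, `normClasses_eq_range`.
-/
import Fermat.Agent.S14.Defs

set_option autoImplicit false

open NumberField nonZeroDivisors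
open scoped Pointwise

namespace Fermat.Agent.S14.FI

/-- A monoid hom on nonzero ideals which kills the principal ideals factors through the class
group. -/
theorem exists_classGroup_lift {R : Type*} [CommRing R] [IsDedekindDomain R] {M : Type*}
    [CommGroup M] (f : (Ideal R)⁰ →* M)
    (hf : ∀ I : (Ideal R)⁰, (I : Ideal R).IsPrincipal → f I = 1) :
    ∃ F : ClassGroup R →* M, ∀ I, F (ClassGroup.mk0 I) = f I := by
  classical
  have hspan : ∀ (x : R) (hx : x ≠ 0),
      f ⟨Ideal.span {x}, mem_nonZeroDivisors_of_ne_zero (by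
        rwa [Ne, Ideal.zero_eq_bot, Ideal.span_singleton_eq_bot])⟩ = 1 := by
    intro x hx
    exact hf _ ⟨⟨x, rfl⟩⟩
  have key : ∀ I J : (Ideal R)⁰, ClassGroup.mk0 I = ClassGroup.mk0 J → f I = f J := by
    intro I J h
    obtain ⟨x, y, hx, hy, hxy⟩ := ClassGroup.mk0_eq_mk0_iff.mp h
    set X : (Ideal R)⁰ := ⟨Ideal.span {x}, mem_nonZeroDivisors_of_ne_zero (by
        rwa [Ne, Ideal.zero_eq_bot, Ideal.span_singleton_eq_bot])⟩
    set Y : (Ideal R)⁰ := ⟨Ideal.span {y}, mem_nonZeroDivisors_of_ne_zero (by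
        rwa [Ne, Ideal.zero_eq_bot, Ideal.span_singleton_eq_bot])⟩
    have h1 : X * I = Y * J := Subtype.ext hxy
    have h2 := congrArg f h1
    rw [map_mul, map_mul, hspan x hx, hspan y hy, one_mul, one_mul] at h2
    exact h2
  let g : ClassGroup R → M := fun c => f (Classical.choose (ClassGroup.mk0_surjective c))
  have hg : ∀ I, g (ClassGroup.mk0 I) = f I := by
    intro I
    exact key _ _ (Classical.choose_spec (ClassGroup.mk0_surjective (ClassGroup.mk0 I)))
  have hone : g 1 = 1 := by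
    rw [← map_one ClassGroup.mk0, hg, map_one]
  have hmul : ∀ c d, g (c * d) = g c * g d := by
    intro c d
    obtain ⟨I, rfl⟩ := ClassGroup.mk0_surjective c
    obtain ⟨J, rfl⟩ := ClassGroup.mk0_surjective d
    rw [← map_mul, hg, hg, hg, map_mul]
  exact ⟨⟨⟨g, hone⟩, hmul⟩, hg⟩

variable (K L : Type*) [Field K] [NumberField K] [Field L] [NumberField L] [Algebra K L]

theorem relNorm0_isPrincipal (I : (Ideal (𝓞 L))⁰) (hI : (I : Ideal (𝓞 L)).IsPrincipal) :
    ((relNorm0 K L I : (Ideal (𝓞 K))⁰) : Ideal (𝓞 K)).IsPrincipal := by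
  obtain ⟨⟨x, hx⟩⟩ := hI
  rw [coe_relNorm0, hx]
  change (Ideal.relNorm (𝓞 K) (Ideal.span {x})).IsPrincipal
  rw [Ideal.relNorm_singleton]
  exact ⟨⟨_, rfl⟩⟩

theorem classNorm_aux (I : (Ideal (𝓞 L))⁰) (hI : (I : Ideal (𝓞 L)).IsPrincipal) :
    (ClassGroup.mk0.comp (relNorm0 K L)) I = 1 := by
  rw [MonoidHom.comp_apply, ClassGroup.mk0_eq_one_iff (relNorm0 K L I).2]
  exact relNorm0_isPrincipal K L I hI

/-- The norm map on ideal class groups. -/
noncomputable def classNorm : ClassGroup (𝓞 L) →* ClassGroup (𝓞 K) :=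
  Classical.choose (exists_classGroup_lift (ClassGroup.mk0.comp (relNorm0 K L))
    (classNorm_aux K L))

theorem classNorm_mk0 (I : (Ideal (𝓞 L))⁰) :
    classNorm K L (ClassGroup.mk0 I) = ClassGroup.mk0 (relNorm0 K L I) :=
  Classical.choose_spec (exists_classGroup_lift (ClassGroup.mk0.comp (relNorm0 K L))
    (classNorm_aux K L)) I

theorem normClasses_eq_range : normClasses K L = (classNorm K L).range := by
  apply le_antisymm
  · rw [normClasses, Subgroup.closure_le]
    rintro _ ⟨I, rfl⟩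
    exact ⟨ClassGroup.mk0 I, classNorm_mk0 K L I⟩
  · rintro _ ⟨c, rfl⟩
    obtain ⟨I, rfl⟩ := ClassGroup.mk0_surjective c
    rw [classNorm_mk0]
    exact Subgroup.subset_closure ⟨I, rfl⟩

variable {K L}

omit [NumberField K] [NumberField L] in
theorem smul_ideal_eq_bot_iff (τ : L ≃ₐ[K] L) (I : Ideal (𝓞 L)) : τ • I = ⊥ ↔ I = ⊥ := by
  constructor
  · intro h
    rw [eq_bot_iff] at h ⊢
    intro x hx
    have : τ • x ∈ τ • I := Ideal.smul_mem_pointwise_smul_iff.mpr hx
    have h2 := h this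
    rw [Ideal.mem_bot] at h2 ⊢
    have := congrArg (fun y => τ⁻¹ • y) h2
    simpa using this
  · rintro rfl
    rw [Ideal.pointwise_smul_def, Ideal.map_bot]

omit [NumberField K] [NumberField L] in
theorem smul_ideal_mul (τ : L ≃ₐ[K] L) (I J : Ideal (𝓞 L)) : τ • (I * J) = τ • I * τ • J := by
  rw [Ideal.pointwise_smul_def, Ideal.pointwise_smul_def, Ideal.pointwise_smul_def, Ideal.map_mul]

omit [NumberField K] [NumberField L] in
theorem smul_ideal_span_singleton (τ : L ≃ₐ[K] L) (x : 𝓞 L) :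
    τ • Ideal.span {x} = Ideal.span {τ • x} := by
  rw [Ideal.pointwise_smul_def, Ideal.map_span, Set.image_singleton]
  rfl

omit [NumberField K] [NumberField L] in
theorem smul_ideal_top (τ : L ≃ₐ[K] L) : τ • (⊤ : Ideal (𝓞 L)) = ⊤ := by
  rw [← Ideal.span_singleton_one, smul_ideal_span_singleton, smul_one]

/-- The Galois action on nonzero ideals. -/
noncomputable def smul0 (σ : L ≃ₐ[K] L) : (Ideal (𝓞 L))⁰ →* (Ideal (𝓞 L))⁰ where
  toFun I := ⟨σ • (I : Ideal (𝓞 L)), mem_nonZeroDivisors_of_ne_zero (by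
    have hI : (I : Ideal (𝓞 L)) ≠ ⊥ := by
      rw [← Ideal.zero_eq_bot]
      exact nonZeroDivisors.ne_zero I.2
    rw [Ne, Ideal.zero_eq_bot, smul_ideal_eq_bot_iff]
    exact hI)⟩
  map_one' := by
    ext1
    simp only [Submonoid.coe_one, Ideal.one_eq_top]
    exact smul_ideal_top σ
  map_mul' I J := by
    ext1
    simp only [Submonoid.coe_mul]
    exact smul_ideal_mul σ _ _

omit [NumberField K] [NumberField L] in
@[simp] theorem coe_smul0 (σ : L ≃ₐ[K] L) (I : (Ideal (𝓞 L))⁰) :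
    ((smul0 σ I : (Ideal (𝓞 L))⁰) : Ideal (𝓞 L)) = σ • (I : Ideal (𝓞 L)) := rfl

theorem classAct_aux (σ : L ≃ₐ[K] L) (I : (Ideal (𝓞 L))⁰) (hI : (I : Ideal (𝓞 L)).IsPrincipal) :
    (ClassGroup.mk0.comp (smul0 σ)) I = 1 := by
  rw [MonoidHom.comp_apply, ClassGroup.mk0_eq_one_iff (smul0 σ I).2]
  obtain ⟨⟨x, hx⟩⟩ := hI
  rw [coe_smul0, hx]
  change (σ • Ideal.span {x}).IsPrincipal
  rw [smul_ideal_span_singleton]
  exact ⟨⟨_, rfl⟩⟩

/-- The action of `σ` on the ideal class group of `L`. -/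
noncomputable def classAct (σ : L ≃ₐ[K] L) : ClassGroup (𝓞 L) →* ClassGroup (𝓞 L) :=
  Classical.choose (exists_classGroup_lift (ClassGroup.mk0.comp (smul0 σ)) (classAct_aux σ))

theorem classAct_mk0 (σ : L ≃ₐ[K] L) (I : (Ideal (𝓞 L))⁰) :
    classAct σ (ClassGroup.mk0 I) = ClassGroup.mk0 (smul0 σ I) :=
  Classical.choose_spec (exists_classGroup_lift (ClassGroup.mk0.comp (smul0 σ))
    (classAct_aux σ)) I

theorem relNorm0_smul0 [IsGalois K L] (σ : L ≃ₐ[K] L) (I : (Ideal (𝓞 L))⁰) :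
    relNorm0 K L (smul0 σ I) = relNorm0 K L I := by
  ext1
  rw [coe_relNorm0, coe_relNorm0, coe_smul0]
  exact Ideal.relNorm_smul (𝓞 K) σ _

theorem classNorm_classAct [IsGalois K L] (σ : L ≃ₐ[K] L) (c : ClassGroup (𝓞 L)) :
    classNorm K L (classAct σ c) = classNorm K L c := by
  obtain ⟨I, rfl⟩ := ClassGroup.mk0_surjective c
  rw [classAct_mk0, classNorm_mk0, classNorm_mk0, relNorm0_smul0]

end Fermat.Agent.S14.FI
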