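/-
T14 / FI-u, sub-piece INV (helper68): in a Galois extension `L/K` of number fields which is
unramified at all finite primes, every nonzero ideal of `𝓞 L` which is stable under `Gal(L/K)`
is the extension of an ideal of `𝓞 K`.
-/
import Mathlib
import Fermat.Agent.S14.Defs

set_option autoImplicit false

open NumberField
open scoped Pointwise

namespace Fermat.Agent.S14.FI.Invariant

variable (K L : Type*) [Field K] [NumberField K] [Field L] [NumberField L] [Algebra K L]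
  [IsGalois K L]

theorem isGaloisGroup_int : IsGaloisGroup (L ≃ₐ[K] L) (𝓞 K) (𝓞 L) :=
  IsGaloisGroup.of_isFractionRing (L ≃ₐ[K] L) (𝓞 K) (𝓞 L) K L

variable {K L}

/-- (a) unramified everywhere (trivial inertia groups) gives ramification index one -/
theorem ramificationIdx_eq_one (hunr : UnramifiedEverywhere K L) (P : Ideal (𝓞 L)) [P.IsPrime]
    (hP : P ≠ ⊥) : P.ramificationIdx (𝓞 K) = 1 := by
  have := isGaloisGroup_int K L
  have hbot : P.inertia (L ≃ₐ[K] L) = ⊥ := by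
    rw [eq_bot_iff]
    intro τ hτ
    exact Subgroup.mem_bot.mpr (hunr P inferInstance hP τ hτ)
  have hcard : Nat.card (P.inertia (L ≃ₐ[K] L)) = 1 := by
    rw [hbot]; exact Subgroup.card_bot
  have : P.LiesOver (P.under (𝓞 K)) := ⟨rfl⟩
  rw [Ideal.card_inertia_eq_ramificationIdxIn (P.under (𝓞 K)) P,
    Ideal.ramificationIdxIn_eq_ramificationIdx (P.under (𝓞 K)) P (L ≃ₐ[K] L)] at hcard
  exact hcard

/-- the Galois group fixes extended ideals -/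
theorem smul_map_algebraMap (σ : L ≃ₐ[K] L) (𝔞 : Ideal (𝓞 K)) :
    σ • 𝔞.map (algebraMap (𝓞 K) (𝓞 L)) = 𝔞.map (algebraMap (𝓞 K) (𝓞 L)) := by
  rw [Ideal.pointwise_smul_def, Ideal.map_map]
  congr 1
  ext x
  simp

/-- (b) for an unramified extension, `𝔭 𝓞_L` is the product of the primes above `𝔭` -/
theorem map_eq_prod_primesOver (hunr : UnramifiedEverywhere K L) (𝔭 : Ideal (𝓞 K))
    [𝔭.IsMaximal] (h𝔭 : 𝔭 ≠ ⊥) :
    𝔭.map (algebraMap (𝓞 K) (𝓞 L)) = ∏ P ∈ (𝔭.primesOver (𝓞 L)).toFinset, P := by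
  rw [Ideal.map_algebraMap_eq_finsetProd_pow h𝔭]
  refine Finset.prod_congr rfl fun P hP => ?_
  rw [Set.mem_toFinset] at hP
  have : P.IsPrime := hP.1
  have hP0 : P ≠ ⊥ := Ideal.ne_bot_of_mem_primesOver h𝔭 hP
  rw [ramificationIdx_eq_one hunr P hP0, pow_one]

/-- (c) an invariant ideal contained in a prime `P` is contained in all primes with the same
restriction to `K` -/
theorem le_of_le_of_under_eq {A : Ideal (𝓞 L)} (hinv : ∀ σ : L ≃ₐ[K] L, σ • A = A)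
    (P Q : Ideal (𝓞 L)) [P.IsPrime] [Q.IsPrime] (hPQ : P.under (𝓞 K) = Q.under (𝓞 K))
    (hAP : A ≤ P) : A ≤ Q := by
  have := isGaloisGroup_int K L
  have : P.LiesOver (P.under (𝓞 K)) := ⟨rfl⟩
  have : Q.LiesOver (P.under (𝓞 K)) := ⟨hPQ⟩
  obtain ⟨σ, rfl⟩ := Ideal.exists_smul_eq_of_isGaloisGroup (P.under (𝓞 K)) P Q (L ≃ₐ[K] L)
  rw [← hinv σ]
  exact Ideal.pointwise_smul_le_pointwise_smul_iff.mpr hAP

/-- **(INV)** In an unramified Galois extension of number fields every nonzero Galois-stable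
ideal of `𝓞 L` is extended from `𝓞 K`. -/
theorem exists_map_eq_of_forall_smul_eq (hunr : UnramifiedEverywhere K L) (A : Ideal (𝓞 L))
    (hA : A ≠ ⊥) (hinv : ∀ σ : L ≃ₐ[K] L, σ • A = A) :
    ∃ 𝔞 : Ideal (𝓞 K), 𝔞 ≠ ⊥ ∧ 𝔞.map (algebraMap (𝓞 K) (𝓞 L)) = A := by
  induction A using IsNoetherian.induction with
  | _ A ih =>
  by_cases htop : A = ⊤
  · exact ⟨⊤, top_ne_bot, by rw [Ideal.map_top, htop]⟩
  obtain ⟨P, hPmax, hAP⟩ := Ideal.exists_le_maximal A htop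
  have hPprime : P.IsPrime := hPmax.isPrime
  have hP0 : P ≠ ⊥ := fun h => hA (le_bot_iff.mp (h ▸ hAP))
  set 𝔭 : Ideal (𝓞 K) := P.under (𝓞 K) with h𝔭def
  have h𝔭max : 𝔭.IsMaximal := Ideal.IsMaximal.under (𝓞 K) P
  have h𝔭0 : 𝔭 ≠ ⊥ := fun h => hP0 (Ideal.eq_bot_of_comap_eq_bot h)
  -- `𝔭 𝓞_L` divides `A`
  have hdvd : 𝔭.map (algebraMap (𝓞 K) (𝓞 L)) ∣ A := by
    rw [map_eq_prod_primesOver hunr 𝔭 h𝔭0]
    refine Finset.prod_primes_dvd A (fun Q hQ => ?_) (fun Q hQ => ?_)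
    · have hQ' : Q ∈ 𝔭.primesOver (𝓞 L) := Set.mem_toFinset.mp hQ
      exact Ideal.prime_of_isPrime (Ideal.ne_bot_of_mem_primesOver h𝔭0 hQ') hQ'.1
    · have hQ' : Q ∈ 𝔭.primesOver (𝓞 L) := Set.mem_toFinset.mp hQ
      have : Ideal.IsPrime Q := hQ'.1
      rw [Ideal.dvd_iff_le]
      exact le_of_le_of_under_eq hinv P Q (hQ'.2.over) hAP
  obtain ⟨A', hA'⟩ := hdvd
  have hmap0 : 𝔭.map (algebraMap (𝓞 K) (𝓞 L)) ≠ ⊥ := Ideal.map_ne_bot_of_ne_bot h𝔭0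
  have hA'0 : A' ≠ ⊥ := by
    rintro rfl
    apply hA
    rw [hA', Ideal.mul_bot]
  have hA'inv : ∀ σ : L ≃ₐ[K] L, σ • A' = A' := by
    intro σ
    have h1 := hinv σ
    rw [hA', smul_mul', smul_map_algebraMap] at h1
    exact mul_left_cancel₀ hmap0 h1
  have hlt : A < A' := by
    refine lt_of_le_of_ne ?_ ?_
    · rw [hA']; exact Ideal.mul_le_right
    · intro h
      have h2 : 𝔭.map (algebraMap (𝓞 K) (𝓞 L)) * A' = 1 * A' := by rw [← hA', one_mul, h]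
      have h3 := mul_right_cancel₀ hA'0 h2
      have h4 : 𝔭.map (algebraMap (𝓞 K) (𝓞 L)) ≤ P := Ideal.map_le_iff_le_comap.mpr le_rfl
      rw [h3, Ideal.one_eq_top] at h4
      exact hPmax.ne_top (top_le_iff.mp h4)
  obtain ⟨𝔞', h𝔞'0, h𝔞'⟩ := ih A' hlt hA'0 hA'inv
  refine ⟨𝔭 * 𝔞', mul_ne_zero h𝔭0 h𝔞'0, ?_⟩
  rw [Ideal.map_mul, h𝔞', hA']

open nonZeroDivisors in
/-- extension of nonzero ideals, as a monoid hom -/
noncomputable def extend0 (K L : Type*) [Field K] [NumberField K] [Field L] [NumberField L]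
    [Algebra K L] : (Ideal (𝓞 K))⁰ →* (Ideal (𝓞 L))⁰ where
  toFun 𝔞 := ⟨(𝔞 : Ideal (𝓞 K)).map (algebraMap (𝓞 K) (𝓞 L)), mem_nonZeroDivisors_of_ne_zero
    (Ideal.map_ne_bot_of_ne_bot (nonZeroDivisors.ne_zero 𝔞.2))⟩
  map_one' := by
    ext1
    simp [Ideal.one_eq_top, Ideal.map_top]
  map_mul' I J := by
    ext1
    simp [Ideal.map_mul]

omit [IsGalois K L] in
open nonZeroDivisors in
@[simp] theorem coe_extend0 (𝔞 : (Ideal (𝓞 K))⁰) :
    ((extend0 K L 𝔞 : (Ideal (𝓞 L))⁰) : Ideal (𝓞 L)) =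
      (𝔞 : Ideal (𝓞 K)).map (algebraMap (𝓞 K) (𝓞 L)) := rfl

open nonZeroDivisors in
/-- (d) the same statement for elements of `(Ideal (𝓞 L))⁰` -/
theorem exists_extend0_eq (hunr : UnramifiedEverywhere K L) (A : (Ideal (𝓞 L))⁰)
    (hinv : ∀ σ : L ≃ₐ[K] L, σ • (A : Ideal (𝓞 L)) = A) :
    ∃ 𝔞 : (Ideal (𝓞 K))⁰, extend0 K L 𝔞 = A := by
  obtain ⟨𝔞, h𝔞0, h𝔞⟩ := exists_map_eq_of_forall_smul_eq hunr (A : Ideal (𝓞 L))
    (nonZeroDivisors.ne_zero A.2) hinv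
  exact ⟨⟨𝔞, mem_nonZeroDivisors_of_ne_zero h𝔞0⟩, Subtype.ext h𝔞⟩

open nonZeroDivisors in
/-- (d') class group form: the class of a Galois-stable nonzero ideal is the class of an
extended ideal -/
theorem exists_mk0_extend0_eq (hunr : UnramifiedEverywhere K L) (A : (Ideal (𝓞 L))⁰)
    (hinv : ∀ σ : L ≃ₐ[K] L, σ • (A : Ideal (𝓞 L)) = A) :
    ∃ 𝔞 : (Ideal (𝓞 K))⁰, ClassGroup.mk0 (extend0 K L 𝔞) = ClassGroup.mk0 A := by
  obtain ⟨𝔞, h𝔞⟩ := exists_extend0_eq hunr A hinv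
  exact ⟨𝔞, by rw [h𝔞]⟩

open nonZeroDivisors in
omit [IsGalois K L] in
theorem extend0_eq_extendedIdeal (𝔞 : (Ideal (𝓞 K))⁰) :
    extend0 K L 𝔞 = ClassGroup.extendedIdeal (𝓞 K) (𝓞 L) 𝔞 := rfl

open nonZeroDivisors in
/-- (d'') in terms of Mathlib's `ClassGroup.extendedHom`: the class of a Galois-stable nonzero
ideal lies in the range of the extension map `Cl(K) → Cl(L)`. -/
theorem mk0_mem_range_extendedHom (hunr : UnramifiedEverywhere K L) (A : (Ideal (𝓞 L))⁰)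
    (hinv : ∀ σ : L ≃ₐ[K] L, σ • (A : Ideal (𝓞 L)) = A) :
    ClassGroup.mk0 A ∈ (ClassGroup.extendedHom (𝓞 K) (𝓞 L)).range := by
  obtain ⟨𝔞, h𝔞⟩ := exists_extend0_eq hunr A hinv
  refine ⟨ClassGroup.mk0 𝔞, ?_⟩
  rw [ClassGroup.extendedHom_mk0, ← extend0_eq_extendedIdeal, h𝔞]

end Fermat.Agent.S14.FI.Invariant
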