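/-
T14 / FI -- (PSI-a): data attached to a `σ`-fixed ideal class, and `G = ⟨σ⟩`-stability lemmas.
No ramification hypothesis.
-/
import Fermat.Agent.S14.FirstInequality.ClassMaps
import Fermat.Agent.S14.UnitsHerbrand

set_option autoImplicit false

open NumberField nonZeroDivisors Module
open scoped Pointwise

namespace Fermat.Agent.S14.FI

variable {K L : Type*} [Field K] [NumberField K] [Field L] [NumberField L] [Algebra K L]
  [IsGalois K L]

/-- In a Galois extension of prime degree, stability under one nontrivial `σ` is stability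
under the whole Galois group. -/
theorem forall_smul_eq_of_smul_eq {p : ℕ} (hp : p.Prime) (hdeg : finrank K L = p)
    (σ : L ≃ₐ[K] L) (hσ : σ ≠ 1) (N : Ideal (𝓞 L)) (h : σ • N = N) :
    ∀ τ : L ≃ₐ[K] L, τ • N = N := by
  have : FiniteDimensional K L := Module.finite_of_finrank_pos (by rw [hdeg]; exact hp.pos)
  have hcard : Nat.card (L ≃ₐ[K] L) = p := by rw [IsGalois.card_aut_eq_finrank, hdeg]
  have : Fact p.Prime := ⟨hp⟩
  have htop : Subgroup.zpowers σ = ⊤ := zpowers_eq_top_of_prime_card hcard hσ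
  have hle : Subgroup.zpowers σ ≤ MulAction.stabilizer (L ≃ₐ[K] L) N := by
    rw [Subgroup.zpowers_le]
    exact h
  intro τ
  rw [htop] at hle
  exact hle (Subgroup.mem_top τ)

omit [NumberField K] [NumberField L] [IsGalois K L] in
theorem smul_ideal_prod (τ : L ≃ₐ[K] L) {ι : Type*} (s : Finset ι) (f : ι → Ideal (𝓞 L)) :
    τ • (∏ i ∈ s, f i) = ∏ i ∈ s, τ • f i := by
  classical
  induction s using Finset.induction_on with
  | empty => simp only [Finset.prod_empty, Ideal.one_eq_top]; exact smul_ideal_top τ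
  | insert a s ha ih =>
    rw [Finset.prod_insert ha, Finset.prod_insert ha, smul_ideal_mul, ih]

omit [NumberField K] [NumberField L] [IsGalois K L] in
/-- `∏_{i<p} σ^i A` is `σ`-stable when `σ^p = 1`. -/
theorem smul_prod_range_pow_smul {p : ℕ} (σ : L ≃ₐ[K] L) (hσp : σ ^ p = 1) (A : Ideal (𝓞 L)) :
    σ • (∏ i ∈ Finset.range p, (σ ^ i) • A) = ∏ i ∈ Finset.range p, (σ ^ i) • A := by
  rw [smul_ideal_prod]
  have h1 : ∀ i ∈ Finset.range p, σ • ((σ ^ i) • A) = (σ ^ (i + 1)) • A := by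
    intro i _
    rw [← mul_smul, ← pow_succ']
  rw [Finset.prod_congr rfl h1]
  rcases p with _ | k
  · simp
  · rw [Finset.prod_range_succ, Finset.prod_range_succ' (fun i => (σ ^ i) • A), hσp, pow_zero]

/-- (PSI-a) data attached to a `σ`-fixed class. -/
theorem exists_data_of_classAct_eq (σ : L ≃ₐ[K] L) (c : ClassGroup (𝓞 L))
    (hc : classAct σ c = c) :
    ∃ (A : (Ideal (𝓞 L))⁰) (x x' : 𝓞 L) (ε : (𝓞 K)ˣ), x ≠ 0 ∧ x' ≠ 0 ∧ ClassGroup.mk0 A = c ∧
      Ideal.span {x} * σ • (A : Ideal (𝓞 L)) = Ideal.span {x'} * (A : Ideal (𝓞 L)) ∧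
      Algebra.intNorm (𝓞 K) (𝓞 L) x' = (ε : 𝓞 K) * Algebra.intNorm (𝓞 K) (𝓞 L) x := by
  obtain ⟨A, rfl⟩ := ClassGroup.mk0_surjective c
  rw [classAct_mk0] at hc
  obtain ⟨x, x', hx, hx', h⟩ := ClassGroup.mk0_eq_mk0_iff.mp hc
  rw [coe_smul0] at h
  have hA : (A : Ideal (𝓞 L)) ≠ ⊥ := by
    rw [← Ideal.zero_eq_bot]
    exact nonZeroDivisors.ne_zero A.2
  have hN := congrArg (Ideal.relNorm (𝓞 K)) h
  rw [map_mul, map_mul, Ideal.relNorm_smul, Ideal.relNorm_singleton, Ideal.relNorm_singleton] at hN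
  have hNA : Ideal.relNorm (𝓞 K) (A : Ideal (𝓞 L)) ≠ 0 := by
    rw [Ne, Ideal.zero_eq_bot, Ideal.relNorm_eq_bot_iff]
    exact hA
  have hN' := mul_right_cancel₀ hNA hN
  rw [Ideal.span_singleton_eq_span_singleton] at hN'
  obtain ⟨ε, hε⟩ := hN'
  exact ⟨A, x, x', ε, hx, hx', rfl, h, by rw [← hε, mul_comm]⟩

end Fermat.Agent.S14.FI
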