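/-
T14 / FI -- (PSI-c) + (FINAL): the count `p * |Cl(L)^σ| ≤ |Cl(K)|` and `N Cl(L) ≠ Cl(K)`,
from the two inputs (PHI) and (PSI-b), stated here as hypotheses `PhiStatement`,
`PsiSepStatement`.
-/
import Fermat.Agent.S14.FirstInequality.PsiExist
import Fermat.Agent.S14.FirstInequality.Invariant
import Fermat.Agent.S14.FirstInequality.Core

set_option autoImplicit false

open NumberField nonZeroDivisors Module
open scoped Pointwise

namespace Fermat.Agent.S14.FI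

variable (K L : Type*) [Field K] [NumberField K] [Field L] [NumberField L] [Algebra K L]
  [IsGalois K L]

/-- `|H^1(E_L)|`. -/
noncomputable def h1 (σ : L ≃ₐ[K] L) (p : ℕ) : ℕ :=
  ((⊤ : Subgroup (𝓞 L)ˣ).map (UH.unitDlt σ)).relIndex (⊤ ⊓ (UH.unitNrm σ p).ker)

/-- `|H^0(E_L)|`. -/
noncomputable def h0 (σ : L ≃ₐ[K] L) (p : ℕ) : ℕ :=
  ((⊤ : Subgroup (𝓞 L)ˣ).map (UH.unitNrm σ p)).relIndex (⊤ ⊓ (UH.unitDlt σ).ker)

/-- The statement of (PHI). -/
def PhiStatement (σ : L ≃ₐ[K] L) (p : ℕ) : Prop :=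
  h1 K L σ p ≤ Nat.card (ClassGroup.extendedHom (𝓞 K) (𝓞 L)).ker

/-- The statement of (PSI-b). -/
def PsiSepStatement (σ : L ≃ₐ[K] L) (p : ℕ) : Prop :=
  ∀ (A A' : (Ideal (𝓞 L))⁰) (x x' z z' : 𝓞 L) (ε ε' : (𝓞 K)ˣ) (w : (𝓞 L)ˣ),
    x ≠ 0 → x' ≠ 0 → z ≠ 0 → z' ≠ 0 →
    Ideal.span {x} * σ • (A : Ideal (𝓞 L)) = Ideal.span {x'} * (A : Ideal (𝓞 L)) →
    Ideal.span {z} * σ • (A' : Ideal (𝓞 L)) = Ideal.span {z'} * (A' : Ideal (𝓞 L)) →
    Algebra.intNorm (𝓞 K) (𝓞 L) x' = (ε : 𝓞 K) * Algebra.intNorm (𝓞 K) (𝓞 L) x →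
    Algebra.intNorm (𝓞 K) (𝓞 L) z' = (ε' : 𝓞 K) * Algebra.intNorm (𝓞 K) (𝓞 L) z →
    UH.baseUnits (L := L) ε' = UH.baseUnits ε * UH.unitNrm σ p w →
    ∃ M : (Ideal (𝓞 L))⁰, (∀ τ : L ≃ₐ[K] L, τ • (M : Ideal (𝓞 L)) = M) ∧
      ClassGroup.mk0 M = ClassGroup.mk0 A' * ∏ i ∈ Finset.Ico 1 p, ClassGroup.mk0 (smul0 (σ ^ i) A)

variable {K L}

/-- `c ↦ σ c / c` on the class group. -/
noncomputable def classDlt (σ : L ≃ₐ[K] L) : ClassGroup (𝓞 L) →* ClassGroup (𝓞 L) :=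
  classAct σ / MonoidHom.id _

omit [IsGalois K L] in
theorem mem_ker_classDlt (σ : L ≃ₐ[K] L) (c : ClassGroup (𝓞 L)) :
    c ∈ (classDlt σ).ker ↔ classAct σ c = c := by
  rw [MonoidHom.mem_ker]
  change classAct σ c / c = 1 ↔ _
  rw [div_eq_one]

/-- classes of `G`-stable ideals lie in the range of the extension map (INV). -/
theorem mk0_mem_range_extendedHom (hunr : UnramifiedEverywhere K L) (M : (Ideal (𝓞 L))⁰)
    (hM : ∀ τ : L ≃ₐ[K] L, τ • (M : Ideal (𝓞 L)) = M) :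
    ClassGroup.mk0 M ∈ (ClassGroup.extendedHom (𝓞 K) (𝓞 L)).range := by
  have hMne : (M : Ideal (𝓞 L)) ≠ ⊥ := by
    rw [← Ideal.zero_eq_bot]
    exact nonZeroDivisors.ne_zero M.2
  obtain ⟨a, ha, haM⟩ := Invariant.exists_map_eq_of_forall_smul_eq hunr (M : Ideal (𝓞 L)) hMne hM
  refine ⟨ClassGroup.mk0 ⟨a, mem_nonZeroDivisors_of_ne_zero (by rwa [Ne, Ideal.zero_eq_bot])⟩, ?_⟩
  rw [ClassGroup.extendedHom_mk0]
  congr 1
  exact Subtype.ext haM

theorem range_extendedHom_le_ker_classDlt (σ : L ≃ₐ[K] L) :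
    (ClassGroup.extendedHom (𝓞 K) (𝓞 L)).range ≤ (classDlt σ).ker := by
  rintro _ ⟨c, rfl⟩
  obtain ⟨a, rfl⟩ := ClassGroup.mk0_surjective c
  rw [mem_ker_classDlt, ClassGroup.extendedHom_mk0, classAct_mk0]
  congr 1
  apply Subtype.ext
  rw [coe_smul0]
  exact Invariant.smul_map_algebraMap σ _

/-- (PSI-c) -/
theorem card_ker_classDlt_le {p : ℕ} (hp : p.Prime) (hdeg : finrank K L = p)
    (hunr : UnramifiedEverywhere K L) (σ : L ≃ₐ[K] L) (hσ : σ ≠ 1)
    (hsep : PsiSepStatement K L σ p) (hh0 : h0 K L σ p ≠ 0) :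
    Nat.card (classDlt σ).ker ≤
      h0 K L σ p * Nat.card (ClassGroup.extendedHom (𝓞 K) (𝓞 L)).range := by
  classical
  set J := (ClassGroup.extendedHom (𝓞 K) (𝓞 L)).range with hJ
  set D := (classDlt σ).ker with hD
  have hσp := UH.pow_finrank_eq_one hp hdeg σ
  have hJD : J ≤ D := range_extendedHom_le_ker_classDlt σ
  -- the target of the separating map
  set kerD : Subgroup (𝓞 L)ˣ := (UH.unitDlt σ).ker with hkerD
  set ranN : Subgroup (𝓞 L)ˣ := (UH.unitNrm σ p).range with hranN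
  have hh0' : h0 K L σ p = ranN.relIndex kerD := by
    rw [h0, top_inf_eq, ← MonoidHom.range_eq_map]
  let X := kerD ⧸ ranN.subgroupOf kerD
  have hXcard : Nat.card X = h0 K L σ p := by
    rw [hh0']
    rfl
  have : Finite X := Nat.finite_of_card_ne_zero (by rw [hXcard]; exact hh0)
  -- chosen data
  have hdata : ∀ c : D, ∃ (A : (Ideal (𝓞 L))⁰) (x x' : 𝓞 L) (ε : (𝓞 K)ˣ), x ≠ 0 ∧ x' ≠ 0 ∧
      ClassGroup.mk0 A = (c : ClassGroup (𝓞 L)) ∧
      Ideal.span {x} * σ • (A : Ideal (𝓞 L)) = Ideal.span {x'} * (A : Ideal (𝓞 L)) ∧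
      Algebra.intNorm (𝓞 K) (𝓞 L) x' = (ε : 𝓞 K) * Algebra.intNorm (𝓞 K) (𝓞 L) x :=
    fun c => exists_data_of_classAct_eq σ c ((mem_ker_classDlt σ c).mp c.2)
  choose A x x' ε hx hx' hA hrel hnorm using hdata
  have hmem : ∀ c : D, UH.baseUnits (L := L) (ε c) ∈ kerD := by
    intro c
    rw [hkerD, MonoidHom.mem_ker, UH.unitDlt_apply, UH.unitAct_baseUnits, div_self']
  let f : D → X := fun c => QuotientGroup.mk ⟨UH.baseUnits (ε c), hmem c⟩
  have hsepf : ∀ c c' : D, f c = f c' →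
      (c : ClassGroup (𝓞 L))⁻¹ * (c' : ClassGroup (𝓞 L)) ∈ J := by
    intro c c' hcc'
    have h1 : (⟨UH.baseUnits (ε c), hmem c⟩ : kerD)⁻¹ * ⟨UH.baseUnits (ε c'), hmem c'⟩ ∈
        ranN.subgroupOf kerD := QuotientGroup.eq.mp hcc'
    rw [Subgroup.mem_subgroupOf] at h1
    obtain ⟨w, hw⟩ := h1
    have hw' : UH.baseUnits (L := L) (ε c') = UH.baseUnits (ε c) * UH.unitNrm σ p w := by
      rw [hw]
      simp
    obtain ⟨M, hMinv, hM⟩ := hsep (A c) (A c') (x c) (x' c) (x c') (x' c') (ε c) (ε c') w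
      (hx c) (hx' c) (hx c') (hx' c') (hrel c) (hrel c') (hnorm c) (hnorm c') hw'
    -- the norm ideal of `A c`
    have hPinv : ∀ τ : L ≃ₐ[K] L,
        τ • ((∏ i ∈ Finset.range p, smul0 (σ ^ i) (A c) : (Ideal (𝓞 L))⁰) : Ideal (𝓞 L)) =
          ((∏ i ∈ Finset.range p, smul0 (σ ^ i) (A c) : (Ideal (𝓞 L))⁰) : Ideal (𝓞 L)) := by
      apply forall_smul_eq_of_smul_eq hp hdeg σ hσ
      rw [Submonoid.coe_finsetProd]
      simp only [coe_smul0]
      exact smul_prod_range_pow_smul σ hσp _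
    have hP := mk0_mem_range_extendedHom hunr _ hPinv
    have hM' := mk0_mem_range_extendedHom hunr M hMinv
    rw [hM] at hM'
    rw [map_prod, Finset.range_eq_Ico, Finset.prod_eq_prod_Ico_succ_bot hp.pos] at hP
    simp only [pow_zero] at hP
    have hone : smul0 (1 : L ≃ₐ[K] L) (A c) = A c := by
      apply Subtype.ext
      rw [coe_smul0, one_smul]
    rw [hone, hA] at hP
    rw [hA] at hM'
    have := J.mul_mem (J.inv_mem hP) hM'
    have heq : ((c : ClassGroup (𝓞 L)) *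
        ∏ i ∈ Finset.Ico (0 + 1) p, ClassGroup.mk0 (smul0 (σ ^ i) (A c)))⁻¹ *
        ((c' : ClassGroup (𝓞 L)) * ∏ i ∈ Finset.Ico 1 p, ClassGroup.mk0 (smul0 (σ ^ i) (A c))) =
        (c : ClassGroup (𝓞 L))⁻¹ * (c' : ClassGroup (𝓞 L)) := by
      rw [zero_add, mul_inv]
      set P := ∏ i ∈ Finset.Ico 1 p, ClassGroup.mk0 (smul0 (σ ^ i) (A c))
      rw [mul_mul_mul_comm, inv_mul_cancel, mul_one]
    rwa [heq] at this
  have hrel : J.relIndex D ≠ 0 ∧ J.relIndex D ≤ Nat.card X :=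
    relIndex_le_card_of_separating J D f hsepf
  have hcard : Nat.card J * J.relIndex D = Nat.card D := by
    have := Subgroup.relIndex_mul_relIndex ⊥ J D bot_le hJD
    rwa [Subgroup.relIndex_bot_left, Subgroup.relIndex_bot_left] at this
  rw [← hcard, mul_comm]
  exact Nat.mul_le_mul_right _ (hrel.2.trans (le_of_eq hXcard))

end Fermat.Agent.S14.FI

namespace Fermat.Agent.S14.FI

variable {K L : Type*} [Field K] [NumberField K] [Field L] [NumberField L] [Algebra K L]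
  [IsGalois K L]

/-- `|N Cl(L)| ≤ |Cl(L)^σ|`. -/
theorem card_range_classNorm_le (σ : L ≃ₐ[K] L) :
    Nat.card (classNorm K L).range ≤ Nat.card (classDlt σ).ker := by
  have hle : (classDlt σ).range ≤ (classNorm K L).ker := by
    rintro _ ⟨c, rfl⟩
    rw [MonoidHom.mem_ker]
    change classNorm K L (classAct σ c / c) = 1
    rw [map_div, classNorm_classAct, div_self']
  have h1 := Subgroup.card_mul_index (classNorm K L).ker
  have h2 := Subgroup.card_mul_index (classDlt σ).ker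
  rw [Subgroup.index_ker] at h1 h2
  have h3 : Nat.card (classDlt σ).range ≤ Nat.card (classNorm K L).ker :=
    Nat.le_of_dvd Nat.card_pos (Subgroup.card_dvd_of_le hle)
  have h4 : Nat.card (classNorm K L).ker * Nat.card (classNorm K L).range ≤
      Nat.card (classNorm K L).ker * Nat.card (classDlt σ).ker := by
    rw [h1, ← h2, mul_comm]
    exact Nat.mul_le_mul_right _ h3
  exact Nat.le_of_mul_le_mul_left h4 Nat.card_pos

/-- (FINAL) modulo (PHI) and (PSI-b). -/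
theorem normClasses_ne_top_of {p : ℕ} (hp : p.Prime) (hdeg : finrank K L = p)
    (hK : IsTotallyComplex K) (hunr : UnramifiedEverywhere K L) (σ : L ≃ₐ[K] L) (hσ : σ ≠ 1)
    (hphi : PhiStatement K L σ p) (hsep : PsiSepStatement K L σ p) : normClasses K L ≠ ⊤ := by
  obtain ⟨hh1, hh0, hh⟩ := units_herbrand hp hdeg hK σ hσ ⊤ (by simp) (fun _ _ => Subgroup.mem_top _)
  change h1 K L σ p ≠ 0 at hh1
  change h0 K L σ p ≠ 0 at hh0
  change h1 K L σ p = p * h0 K L σ p at hh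
  have hpsi := card_ker_classDlt_le hp hdeg hunr σ hσ hsep hh0
  have hj := Subgroup.card_mul_index (ClassGroup.extendedHom (𝓞 K) (𝓞 L)).ker
  rw [Subgroup.index_ker] at hj
  -- `p * |C^σ| ≤ |Cl K|`
  have hmain : p * Nat.card (classDlt σ).ker ≤ Nat.card (ClassGroup (𝓞 K)) := by
    calc p * Nat.card (classDlt σ).ker
        ≤ p * (h0 K L σ p * Nat.card (ClassGroup.extendedHom (𝓞 K) (𝓞 L)).range) :=
          Nat.mul_le_mul_left _ hpsi
      _ = h1 K L σ p * Nat.card (ClassGroup.extendedHom (𝓞 K) (𝓞 L)).range := by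
          rw [hh, mul_assoc]
      _ ≤ Nat.card (ClassGroup.extendedHom (𝓞 K) (𝓞 L)).ker *
            Nat.card (ClassGroup.extendedHom (𝓞 K) (𝓞 L)).range := Nat.mul_le_mul_right _ hphi
      _ = Nat.card (ClassGroup (𝓞 K)) := hj
  intro htop
  rw [normClasses_eq_range] at htop
  have hcard : Nat.card (classNorm K L).range = Nat.card (ClassGroup (𝓞 K)) := by
    rw [htop, Subgroup.card_top]
  have hle := card_range_classNorm_le (K := K) σ
  rw [hcard] at hle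
  have hpos : 0 < Nat.card (ClassGroup (𝓞 K)) := Nat.card_pos
  have h2 : 2 * Nat.card (ClassGroup (𝓞 K)) ≤ Nat.card (ClassGroup (𝓞 K)) :=
    calc 2 * Nat.card (ClassGroup (𝓞 K)) ≤ p * Nat.card (ClassGroup (𝓞 K)) :=
          Nat.mul_le_mul_right _ hp.two_le
      _ ≤ p * Nat.card (classDlt σ).ker := Nat.mul_le_mul_left _ hle
      _ ≤ _ := hmain
  omega

end Fermat.Agent.S14.FI
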