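/-
T14 / FI -- integral cyclic Hilbert 90 for `L/K` Galois of prime degree (universe polymorphic),
in the language of `UnitsHerbrand.lean`.
-/
import Fermat.Agent.S14.FirstInequality.Core
import Fermat.Agent.S14.UnitsHerbrand

set_option autoImplicit false

open NumberField Module

namespace Fermat.Agent.S14.FI

variable {K L : Type*} [Field K] [NumberField K] [Field L] [NumberField L] [Algebra K L]
  [IsGalois K L]

omit [NumberField K] [NumberField L] [IsGalois K L] in
theorem toRingEquiv_pow_apply (σ : L ≃ₐ[K] L) (i : ℕ) (x : L) :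
    ((σ : L ≃+* L) ^ i) x = (σ ^ i) x := by
  induction i generalizing x with
  | zero => simp
  | succ i ih =>
    rw [pow_succ', pow_succ']
    change (σ : L ≃+* L) (((σ : L ≃+* L) ^ i) x) = σ ((σ ^ i) x)
    rw [ih]
    rfl

theorem orderOf_eq_of_ne_one {p : ℕ} (hp : p.Prime) (hdeg : finrank K L = p)
    (σ : L ≃ₐ[K] L) (hσ : σ ≠ 1) : orderOf σ = p := by
  have : Fact p.Prime := ⟨hp⟩
  exact orderOf_eq_prime (UH.pow_finrank_eq_one hp hdeg σ) hσ

/-- Field version: `∏_{i<p} σ^i x = 1 ⇒ x = y / σ y`. -/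
theorem field_hilbert90 {p : ℕ} (hp : p.Prime) (hdeg : finrank K L = p)
    (σ : L ≃ₐ[K] L) (hσ : σ ≠ 1) (x : L) (hx : ∏ i ∈ Finset.range p, (σ ^ i) x = 1) :
    ∃ y : L, y ≠ 0 ∧ x * σ y = y := by
  have hord := orderOf_eq_of_ne_one hp hdeg σ hσ
  have hσp := UH.pow_finrank_eq_one hp hdeg σ
  refine hilbert90_cyclic (σ : L ≃+* L) p hp.pos ?_ ?_ x ?_
  · intro i hi j hj hij
    have h : σ ^ i = σ ^ j := by
      ext y
      rw [← toRingEquiv_pow_apply, ← toRingEquiv_pow_apply, hij]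
    exact pow_injOn_Iio_orderOf (by rw [hord]; exact hi) (by rw [hord]; exact hj) h
  · ext y
    rw [toRingEquiv_pow_apply, hσp]
    rfl
  · rw [← hx]
    exact Finset.prod_congr rfl (fun i _ => toRingEquiv_pow_apply σ i x)

/-- Integral version: `y` may be taken in `𝓞 L`. -/
theorem int_hilbert90 {p : ℕ} (hp : p.Prime) (hdeg : finrank K L = p)
    (σ : L ≃ₐ[K] L) (hσ : σ ≠ 1) (x : L) (hx : ∏ i ∈ Finset.range p, (σ ^ i) x = 1) :
    ∃ y : 𝓞 L, y ≠ 0 ∧ x * σ (y : L) = (y : L) := by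
  obtain ⟨y, hy0, hy⟩ := field_hilbert90 hp hdeg σ hσ x hx
  have halg : IsAlgebraic ℤ y := by
    rw [IsFractionRing.isAlgebraic_iff ℤ ℚ L]
    exact Algebra.IsAlgebraic.isAlgebraic y
  obtain ⟨m, hm0, hm⟩ := halg.exists_integral_multiple
  refine ⟨⟨m • y, hm⟩, ?_, ?_⟩
  · intro h
    have h1 : m • y = 0 := by
      have h2 := congrArg (fun z : 𝓞 L => (z : L)) h
      simpa using h2
    rw [smul_eq_zero] at h1
    rcases h1 with h1 | h1
    · exact hm0 h1
    · exact hy0 h1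
  · change x * σ (m • y) = m • y
    rw [map_zsmul, mul_smul_comm, hy]

end Fermat.Agent.S14.FI
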