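/-
T14 / FI-u, sub-piece PSI-b (helper70): the separation step of the ambiguous class count.

Math.  `L/K` Galois of prime degree `p`, `G = ⟨σ⟩`.  Let `A, A'` be nonzero integral ideals of `𝓞 L`
whose classes are `σ`-fixed: `(x) σA = (x') A`, `(z) σA' = (z') A'`, and put `ε = N(x'/x)`,
`ε' = N(z'/z)` (units of `K`).  If `ε'/ε = N(w)` for a unit `w` of `L`, then
`[A'] ∏_{1 ≤ i < p} [σ^i A]` is the class of a `G`-stable integral ideal.
No hypothesis on ramification.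

Proof.  `𝔐 := A' ∏_{1≤i<p} σ^i A` satisfies `(z x') σ𝔐 = (z' x) 𝔐`; `N(z' x) = N(z x' w)`, so by
Hilbert 90 there is `t ≠ 0` in `𝓞 L` with `z' x t = z x' w σt`; then `(t) σ𝔐 = (σt) 𝔐` and
`M := 𝔐 ∏_{1≤i<p} (σ^i t)` is `σ`-stable, hence `G`-stable, in the class of `𝔐`.
-/
import Fermat.Agent.S14.UnitsHerbrand
import Fermat.Agent.S14.FirstInequality.Core

set_option autoImplicit false

open NumberField Module
open scoped Pointwise nonZeroDivisors

namespace Fermat.Agent.S14.FI.PsiSep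

variable {K L : Type*} [Field K] [NumberField K] [Field L] [NumberField L] [Algebra K L]

/-! ### The Galois action on ideals of `𝓞 L` -/

omit [NumberField K] [NumberField L] in
theorem smul_span_singleton (τ : L ≃ₐ[K] L) (x : 𝓞 L) :
    τ • Ideal.span ({x} : Set (𝓞 L)) = Ideal.span {τ • x} := by
  rw [Ideal.smul_closure, Set.smul_set_singleton]

omit [NumberField K] [NumberField L] in
theorem smul_ne_bot (τ : L ≃ₐ[K] L) {I : Ideal (𝓞 L)} (hI : I ≠ ⊥) : τ • I ≠ ⊥ := by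
  intro h
  apply hI
  have h2 := congrArg (fun J : Ideal (𝓞 L) => τ⁻¹ • J) h
  simpa using h2

/-- The Galois action on nonzero ideals. -/
noncomputable def smul0 (τ : L ≃ₐ[K] L) (A : (Ideal (𝓞 L))⁰) : (Ideal (𝓞 L))⁰ :=
  ⟨τ • (A : Ideal (𝓞 L)), mem_nonZeroDivisors_of_ne_zero
    (smul_ne_bot τ (nonZeroDivisors.ne_zero A.2))⟩

omit [NumberField K] [NumberField L] in
@[simp] theorem coe_smul0 (τ : L ≃ₐ[K] L) (A : (Ideal (𝓞 L))⁰) :
    ((smul0 τ A : (Ideal (𝓞 L))⁰) : Ideal (𝓞 L)) = τ • (A : Ideal (𝓞 L)) := rfl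

omit [NumberField K] [NumberField L] in
theorem smul_finset_prod {ι : Type*} (τ : L ≃ₐ[K] L) (s : Finset ι) (f : ι → Ideal (𝓞 L)) :
    τ • ∏ i ∈ s, f i = ∏ i ∈ s, τ • f i := by
  classical
  induction s using Finset.induction_on with
  | empty =>
    rw [Finset.prod_empty, Finset.prod_empty]
    exact smul_one τ
  | insert a s ha ih => rw [Finset.prod_insert ha, Finset.prod_insert ha, smul_mul', ih]

/-! ### Integral Hilbert 90 for `⟨σ⟩` of prime order -/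

omit [NumberField K] [NumberField L] in
theorem toRingEquiv_pow_apply (σ : L ≃ₐ[K] L) (i : ℕ) (y : L) :
    ((σ : L ≃+* L) ^ i) y = (σ ^ i) y := by
  induction i generalizing y with
  | zero => rfl
  | succ k ih =>
    rw [pow_succ', pow_succ', RingAut.mul_apply, ih, AlgEquiv.mul_apply]
    rfl

theorem int_hilbert90 [IsGalois K L] {p : ℕ} (hp : p.Prime) (hdeg : finrank K L = p)
    (σ : L ≃ₐ[K] L) (hσ : σ ≠ 1) (η : L) (hη : ∏ i ∈ Finset.range p, (σ ^ i) η = 1) :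
    ∃ t : 𝓞 L, t ≠ 0 ∧ η * σ (t : L) = (t : L) := by
  have hσp : σ ^ p = 1 := UH.pow_finrank_eq_one hp hdeg σ
  have : Fact p.Prime := ⟨hp⟩
  have hord : orderOf σ = p := orderOf_eq_prime hσp hσ
  obtain ⟨y, hy0, hy⟩ := hilbert90_cyclic (σ : L ≃+* L) p hp.pos
    (by
      intro i hi j hj hij
      have h1 : σ ^ i = σ ^ j := by
        ext y
        rw [← toRingEquiv_pow_apply, ← toRingEquiv_pow_apply, hij]
      exact pow_injOn_Iio_orderOf (by rw [hord]; exact hi) (by rw [hord]; exact hj) h1)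
    (by
      ext y
      rw [toRingEquiv_pow_apply, hσp]
      rfl)
    η (by
      rw [← hη]
      exact Finset.prod_congr rfl (fun i _ => toRingEquiv_pow_apply σ i η))
  have hy' : η * σ y = y := hy
  -- clear denominators by a rational integer
  have halg : IsAlgebraic ℤ y :=
    (IsFractionRing.isAlgebraic_iff ℤ ℚ L).mpr (Algebra.IsAlgebraic.isAlgebraic y)
  obtain ⟨d, hd0, hd⟩ := halg.exists_integral_multiple
  refine ⟨⟨d • y, hd⟩, ?_, ?_⟩
  · intro h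
    have h2 : d • y = 0 := congrArg (fun z : 𝓞 L => (z : L)) h
    rcases smul_eq_zero.mp h2 with h3 | h3
    · exact hd0 h3
    · exact hy0 h3
  · show η * σ (d • y) = d • y
    rw [map_zsmul, mul_smul_comm, hy']

/-! ### Orbit products -/

omit [NumberField K] [NumberField L] in
/-- The full orbit product `∏_{i<p} σ^i J` is `σ`-stable when `σ^p = 1`. -/
theorem smul_prod_range {p : ℕ} (σ : L ≃ₐ[K] L) (hσp : σ ^ p = 1) (J : Ideal (𝓞 L)) :
    σ • ∏ i ∈ Finset.range p, σ ^ i • J = ∏ i ∈ Finset.range p, σ ^ i • J := by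
  rw [smul_finset_prod]
  have h1 : ∀ i, σ • σ ^ i • J = σ ^ (i + 1) • J := fun i => by
    rw [← mul_smul, ← pow_succ']
  simp_rw [h1]
  rcases p with _ | k
  · simp
  · rw [Finset.prod_range_succ, Finset.prod_range_succ' (fun i => σ ^ i • J), hσp, pow_zero]

omit [NumberField K] [NumberField L] in
/-- `σ(∏_{1≤i<p} σ^i J) · σJ = (∏_{1≤i<p} σ^i J) · J`. -/
theorem smul_prod_Ico_mul {p : ℕ} (hp : 0 < p) (σ : L ≃ₐ[K] L) (hσp : σ ^ p = 1)
    (J : Ideal (𝓞 L)) :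
    σ • (∏ i ∈ Finset.Ico 1 p, σ ^ i • J) * σ • J = (∏ i ∈ Finset.Ico 1 p, σ ^ i • J) * J := by
  have h := smul_prod_range σ hσp J
  rw [Finset.prod_range_eq_mul_Ico _ hp, pow_zero, one_smul, smul_mul'] at h
  rw [mul_comm, h, mul_comm]

/-! ### The separation step -/

/-- **PSI-b** (separation).  See the file header. -/
theorem psi_separation [IsGalois K L] {p : ℕ} (hp : p.Prime) (hdeg : finrank K L = p)
    (σ : L ≃ₐ[K] L) (hσ : σ ≠ 1) (A A' : (Ideal (𝓞 L))⁰) (x x' z z' : 𝓞 L)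
    (hx : x ≠ 0) (hx' : x' ≠ 0) (hz : z ≠ 0) (hz' : z' ≠ 0) (ε ε' : (𝓞 K)ˣ) (w : (𝓞 L)ˣ)
    (h1 : Ideal.span {x} * σ • (A : Ideal (𝓞 L)) = Ideal.span {x'} * (A : Ideal (𝓞 L)))
    (h2 : Ideal.span {z} * σ • (A' : Ideal (𝓞 L)) = Ideal.span {z'} * (A' : Ideal (𝓞 L)))
    (hε : Algebra.intNorm (𝓞 K) (𝓞 L) x' = ε * Algebra.intNorm (𝓞 K) (𝓞 L) x)
    (hε' : Algebra.intNorm (𝓞 K) (𝓞 L) z' = ε' * Algebra.intNorm (𝓞 K) (𝓞 L) z)
    (hw : UH.baseUnits ε' = UH.baseUnits ε * UH.unitNrm σ p w) :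
    ∃ M : (Ideal (𝓞 L))⁰, (∀ τ : L ≃ₐ[K] L, τ • (M : Ideal (𝓞 L)) = M) ∧
      ClassGroup.mk0 M =
        ClassGroup.mk0 A' * ∏ i ∈ Finset.Ico 1 p, ClassGroup.mk0 (smul0 (σ ^ i) A) := by
  classical
  have hfd : FiniteDimensional K L := Module.finite_of_finrank_pos (by rw [hdeg]; exact hp.pos)
  have hσp : σ ^ p = 1 := UH.pow_finrank_eq_one hp hdeg σ
  -- norms in `K`
  have nx' : Algebra.norm K ((x' : 𝓞 L) : L) = (ε : 𝓞 K) * Algebra.norm K ((x : 𝓞 L) : L) := by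
    have := congrArg (algebraMap (𝓞 K) K) hε
    rw [map_mul, Algebra.algebraMap_intNorm (K := K) (L := L),
      Algebra.algebraMap_intNorm (K := K) (L := L)] at this
    exact this
  have nz' : Algebra.norm K ((z' : 𝓞 L) : L) = (ε' : 𝓞 K) * Algebra.norm K ((z : 𝓞 L) : L) := by
    have := congrArg (algebraMap (𝓞 K) K) hε'
    rw [map_mul, Algebra.algebraMap_intNorm (K := K) (L := L),
      Algebra.algebraMap_intNorm (K := K) (L := L)] at this
    exact this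
  have nw : ((ε' : 𝓞 K) : K) = (ε : 𝓞 K) * Algebra.norm K (((w : (𝓞 L)ˣ) : 𝓞 L) : L) := by
    have h3 := congrArg (fun u : (𝓞 L)ˣ => ((u : 𝓞 L) : L)) hw
    simp only [Units.val_mul, map_mul] at h3
    change (((UH.baseUnits (L := L) ε' : (𝓞 L)ˣ) : 𝓞 L) : L) =
      (((UH.baseUnits (L := L) ε : (𝓞 L)ˣ) : 𝓞 L) : L) *
        (((UH.unitNrm σ p w : (𝓞 L)ˣ) : 𝓞 L) : L) at h3
    rw [UH.coe_coe_baseUnits, UH.coe_coe_baseUnits, UH.coe_coe_unitNrm hp hdeg σ hσ,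
      ← map_mul] at h3
    exact (algebraMap K L).injective h3
  have hxL : ((x : 𝓞 L) : L) ≠ 0 := by
    intro h; exact hx (RingOfIntegers.ext (by simp at h; simp [h]))
  have hzL : ((z : 𝓞 L) : L) ≠ 0 := by
    intro h; exact hz (RingOfIntegers.ext (by simpa using h))
  have hz'L : ((z' : 𝓞 L) : L) ≠ 0 := by
    intro h; exact hz' (RingOfIntegers.ext (by simpa using h))
  have nxne : Algebra.norm K ((x : 𝓞 L) : L) ≠ 0 := Algebra.norm_ne_zero_iff.mpr hxL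
  have nzne : Algebra.norm K ((z : 𝓞 L) : L) ≠ 0 := Algebra.norm_ne_zero_iff.mpr hzL
  have hε'K : ((ε' : 𝓞 K) : K) ≠ 0 := by
    intro h
    have : ((ε' : 𝓞 K)) = 0 := RingOfIntegers.ext (by rw [h]; rfl)
    exact ε'.ne_zero this
  -- the element of norm one
  set η : L := ((z : 𝓞 L) : L) * ((x' : 𝓞 L) : L) * (((w : (𝓞 L)ˣ) : 𝓞 L) : L) /
    (((z' : 𝓞 L) : L) * ((x : 𝓞 L) : L)) with hη
  have hηnorm : Algebra.norm K η = 1 := by
    have hmul : η * (((z' : 𝓞 L) : L) * ((x : 𝓞 L) : L)) =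
        ((z : 𝓞 L) : L) * ((x' : 𝓞 L) : L) * (((w : (𝓞 L)ˣ) : 𝓞 L) : L) := by
      rw [hη, div_mul_cancel₀ _ (mul_ne_zero hz'L hxL)]
    have h3 := congrArg (Algebra.norm K) hmul
    rw [map_mul, map_mul, map_mul, map_mul, nx', nz'] at h3
    have hne : ((ε' : 𝓞 K) : K) * Algebra.norm K ((z : 𝓞 L) : L) *
        Algebra.norm K ((x : 𝓞 L) : L) ≠ 0 := mul_ne_zero (mul_ne_zero hε'K nzne) nxne
    apply mul_right_cancel₀ hne
    rw [one_mul, h3, nw]
    ring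
  have hηprod : ∏ i ∈ Finset.range p, (σ ^ i) η = 1 := by
    rw [UH.prod_pow_eq_norm hp hdeg σ hσ, hηnorm, map_one]
  obtain ⟨t, ht0, ht⟩ := int_hilbert90 hp hdeg σ hσ η hηprod
  -- the key equation in `𝓞 L`
  have hkey : z * x' * (w : 𝓞 L) * (σ • t) = z' * x * t := by
    apply RingOfIntegers.ext
    have h3 : η * σ ((t : 𝓞 L) : L) = ((t : 𝓞 L) : L) := ht
    rw [hη, div_mul_eq_mul_div, div_eq_iff (mul_ne_zero hz'L hxL)] at h3
    show ((z * x' * (w : 𝓞 L) * (σ • t) : 𝓞 L) : L) = ((z' * x * t : 𝓞 L) : L)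
    have h4 : algebraMap (𝓞 L) L (σ • t) = σ (algebraMap (𝓞 L) L t) := rfl
    simp only [map_mul]
    rw [h4]
    linear_combination h3
  -- ideals
  set I : Ideal (𝓞 L) := (A : Ideal (𝓞 L)) with hI
  set I' : Ideal (𝓞 L) := (A' : Ideal (𝓞 L)) with hI'
  have hI0 : I ≠ 0 := nonZeroDivisors.ne_zero A.2
  set P : Ideal (𝓞 L) := ∏ i ∈ Finset.Ico 1 p, σ ^ i • I with hP
  set T : Ideal (𝓞 L) := ∏ i ∈ Finset.Ico 1 p, σ ^ i • Ideal.span {t} with hT
  have sx0 : (Ideal.span {x} : Ideal (𝓞 L)) ≠ 0 := by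
    rwa [Ne, Ideal.zero_eq_bot, Ideal.span_singleton_eq_bot]
  have sx'0 : (Ideal.span {x'} : Ideal (𝓞 L)) ≠ 0 := by
    rwa [Ne, Ideal.zero_eq_bot, Ideal.span_singleton_eq_bot]
  have sz0 : (Ideal.span {z} : Ideal (𝓞 L)) ≠ 0 := by
    rwa [Ne, Ideal.zero_eq_bot, Ideal.span_singleton_eq_bot]
  have st0 : (Ideal.span {t} : Ideal (𝓞 L)) ≠ 0 := by
    rwa [Ne, Ideal.zero_eq_bot, Ideal.span_singleton_eq_bot]
  have sσt0 : (Ideal.span {σ • t} : Ideal (𝓞 L)) ≠ 0 := by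
    rw [← smul_span_singleton, Ideal.zero_eq_bot]
    exact smul_ne_bot σ (by rwa [← Ideal.zero_eq_bot])
  -- (x) P = (x') σP
  have eP : Ideal.span {x} * P = Ideal.span {x'} * σ • P := by
    have h3 := smul_prod_Ico_mul hp.pos σ hσp I
    rw [← hP] at h3
    apply mul_right_cancel₀ hI0
    calc Ideal.span {x} * P * I = Ideal.span {x} * (σ • P * σ • I) := by rw [h3, mul_assoc]
      _ = σ • P * (Ideal.span {x} * σ • I) := by ring
      _ = σ • P * (Ideal.span {x'} * I) := by rw [h1]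
      _ = Ideal.span {x'} * σ • P * I := by ring
  -- (z x') σ𝔐 = (z' x) 𝔐
  have eM : Ideal.span {z} * Ideal.span {x'} * σ • (I' * P) =
      Ideal.span {z'} * Ideal.span {x} * (I' * P) := by
    rw [smul_mul']
    calc Ideal.span {z} * Ideal.span {x'} * (σ • I' * σ • P)
        = (Ideal.span {z} * σ • I') * (Ideal.span {x'} * σ • P) := by ring
      _ = (Ideal.span {z'} * I') * (Ideal.span {x} * P) := by rw [h2, eP]
      _ = Ideal.span {z'} * Ideal.span {x} * (I' * P) := by ring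
  -- (z x') (σ t) = (z' x) (t)
  have et : Ideal.span {z} * Ideal.span {x'} * Ideal.span {σ • t} =
      Ideal.span {z'} * Ideal.span {x} * Ideal.span {t} := by
    rw [Ideal.span_singleton_mul_span_singleton, Ideal.span_singleton_mul_span_singleton,
      Ideal.span_singleton_mul_span_singleton, Ideal.span_singleton_mul_span_singleton, ← hkey]
    apply Ideal.span_singleton_eq_span_singleton.mpr
    have : z * x' * (w : 𝓞 L) * (σ • t) = z * x' * (σ • t) * (w : 𝓞 L) := by ring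
    rw [this]
    exact (associated_mul_unit_left _ _ w.isUnit).symm
  -- (t) σ𝔐 = (σ t) 𝔐
  have e3 : Ideal.span {t} * σ • (I' * P) = Ideal.span {σ • t} * (I' * P) := by
    apply mul_left_cancel₀ (mul_ne_zero sz0 sx'0)
    calc Ideal.span {z} * Ideal.span {x'} * (Ideal.span {t} * σ • (I' * P))
        = Ideal.span {t} * (Ideal.span {z} * Ideal.span {x'} * σ • (I' * P)) := by ring
      _ = Ideal.span {t} * (Ideal.span {z'} * Ideal.span {x} * (I' * P)) := by rw [eM]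
      _ = (Ideal.span {z'} * Ideal.span {x} * Ideal.span {t}) * (I' * P) := by ring
      _ = (Ideal.span {z} * Ideal.span {x'} * Ideal.span {σ • t}) * (I' * P) := by rw [et]
      _ = Ideal.span {z} * Ideal.span {x'} * (Ideal.span {σ • t} * (I' * P)) := by ring
  -- (σ t) σT = (t) T
  have e4 : σ • T * Ideal.span {σ • t} = T * Ideal.span {t} := by
    have h3 := smul_prod_Ico_mul hp.pos σ hσp (Ideal.span {t})
    rw [← hT, smul_span_singleton] at h3
    exact h3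
  -- σ-stability of `M = 𝔐 T`
  have eσ : σ • (I' * P * T) = I' * P * T := by
    apply mul_left_cancel₀ (mul_ne_zero st0 sσt0)
    rw [smul_mul']
    calc Ideal.span {t} * Ideal.span {σ • t} * (σ • (I' * P) * σ • T)
        = (Ideal.span {t} * σ • (I' * P)) * (σ • T * Ideal.span {σ • t}) := by ring
      _ = (Ideal.span {σ • t} * (I' * P)) * (T * Ideal.span {t}) := by rw [e3, e4]
      _ = Ideal.span {t} * Ideal.span {σ • t} * (I' * P * T) := by ring
  -- all of `G`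
  have hcard : Nat.card (L ≃ₐ[K] L) = p := by rw [IsGalois.card_aut_eq_finrank, hdeg]
  have : Fact p.Prime := ⟨hp⟩
  have htop : Subgroup.zpowers σ = ⊤ := zpowers_eq_top_of_prime_card hcard hσ
  have hall : ∀ τ : L ≃ₐ[K] L, τ • (I' * P * T) = I' * P * T := by
    intro τ
    have hle : Subgroup.zpowers σ ≤ MulAction.stabilizer (L ≃ₐ[K] L) (I' * P * T) :=
      Subgroup.zpowers_le.mpr (MulAction.mem_stabilizer_iff.mpr eσ)
    rw [htop] at hle
    exact MulAction.mem_stabilizer_iff.mp (hle (Subgroup.mem_top τ))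
  -- assemble in the submonoid of nonzero ideals
  set tt : 𝓞 L := ∏ i ∈ Finset.Ico 1 p, σ ^ i • t with htt
  have hTspan : T = Ideal.span {tt} := by
    rw [hT, htt, ← Ideal.prod_span_singleton]
    exact Finset.prod_congr rfl (fun i _ => smul_span_singleton (σ ^ i) t)
  have htt0 : tt ≠ 0 := by
    rw [htt, Finset.prod_ne_zero_iff]
    intro i _ h
    apply ht0
    have := congrArg (fun y : 𝓞 L => (σ ^ i)⁻¹ • y) h
    simpa using this
  have hT0 : Ideal.span {tt} ∈ (Ideal (𝓞 L))⁰ := mem_nonZeroDivisors_of_ne_zero (by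
    rwa [Ne, Ideal.zero_eq_bot, Ideal.span_singleton_eq_bot])
  refine ⟨A' * (∏ i ∈ Finset.Ico 1 p, smul0 (σ ^ i) A) * ⟨Ideal.span {tt}, hT0⟩, ?_, ?_⟩
  · intro τ
    have hcoe : ((A' * (∏ i ∈ Finset.Ico 1 p, smul0 (σ ^ i) A) * ⟨Ideal.span {tt}, hT0⟩ :
        (Ideal (𝓞 L))⁰) : Ideal (𝓞 L)) = I' * P * T := by
      rw [Submonoid.coe_mul, Submonoid.coe_mul, Submonoid.coe_finsetProd, hTspan]
      rfl
    rw [hcoe]
    exact hall τ
  · rw [map_mul, map_mul, map_prod, (ClassGroup.mk0_eq_one_iff hT0).mpr ⟨⟨tt, rfl⟩⟩, mul_one]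

/-- Variant of `psi_separation` for an arbitrary presentation `B i` of the conjugates `σ^i A` as
nonzero ideals (e.g. coming from another definition of the Galois action on `(Ideal (𝓞 L))⁰`). -/
theorem psi_separation' [IsGalois K L] {p : ℕ} (hp : p.Prime) (hdeg : finrank K L = p)
    (σ : L ≃ₐ[K] L) (hσ : σ ≠ 1) (A A' : (Ideal (𝓞 L))⁰) (x x' z z' : 𝓞 L)
    (hx : x ≠ 0) (hx' : x' ≠ 0) (hz : z ≠ 0) (hz' : z' ≠ 0) (ε ε' : (𝓞 K)ˣ) (w : (𝓞 L)ˣ)
    (h1 : Ideal.span {x} * σ • (A : Ideal (𝓞 L)) = Ideal.span {x'} * (A : Ideal (𝓞 L)))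
    (h2 : Ideal.span {z} * σ • (A' : Ideal (𝓞 L)) = Ideal.span {z'} * (A' : Ideal (𝓞 L)))
    (hε : Algebra.intNorm (𝓞 K) (𝓞 L) x' = ε * Algebra.intNorm (𝓞 K) (𝓞 L) x)
    (hε' : Algebra.intNorm (𝓞 K) (𝓞 L) z' = ε' * Algebra.intNorm (𝓞 K) (𝓞 L) z)
    (hw : UH.baseUnits ε' = UH.baseUnits ε * UH.unitNrm σ p w)
    (B : ℕ → (Ideal (𝓞 L))⁰) (hB : ∀ i, (B i : Ideal (𝓞 L)) = σ ^ i • (A : Ideal (𝓞 L))) :
    ∃ M : (Ideal (𝓞 L))⁰, (∀ τ : L ≃ₐ[K] L, τ • (M : Ideal (𝓞 L)) = M) ∧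
      ClassGroup.mk0 M = ClassGroup.mk0 A' * ∏ i ∈ Finset.Ico 1 p, ClassGroup.mk0 (B i) := by
  obtain ⟨M, hM, hcl⟩ := psi_separation hp hdeg σ hσ A A' x x' z z' hx hx' hz hz' ε ε' w h1 h2
    hε hε' hw
  refine ⟨M, hM, ?_⟩
  rw [hcl]
  congr 1
  refine Finset.prod_congr rfl (fun i _ => ?_)
  congr 1
  exact Subtype.ext (hB i).symm

end Fermat.Agent.S14.FI.PsiSep
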