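/-
T14 / FI-u: the statement `FI.PsiSepStatement` of `FirstInequality/Count.lean` holds
(instantiation of `PsiSep.psi_separation'`, helper70).
-/
import Fermat.Agent.S14.FirstInequality.Count
import Fermat.Agent.S14.FirstInequality.PsiSep

set_option autoImplicit false

open NumberField nonZeroDivisors Module
open scoped Pointwise

namespace Fermat.Agent.S14.FI

variable {K L : Type*} [Field K] [NumberField K] [Field L] [NumberField L] [Algebra K L]
  [IsGalois K L]

/-- (PSI-b) in the exact shape consumed by `FI.card_ker_classDlt_le` / `FI.normClasses_ne_top_of`. -/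
theorem psiSepStatement {p : ℕ} (hp : p.Prime) (hdeg : finrank K L = p) (σ : L ≃ₐ[K] L)
    (hσ : σ ≠ 1) : PsiSepStatement K L σ p := by
  intro A A' x x' z z' ε ε' w hx hx' hz hz' h1 h2 hε hε' hw
  exact PsiSep.psi_separation' hp hdeg σ hσ A A' x x' z z' hx hx' hz hz' ε ε' w h1 h2 hε hε' hw
    (fun i => smul0 (σ ^ i) A) (fun i => coe_smul0 (σ ^ i) A)

end Fermat.Agent.S14.FI
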