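/-
T14 / FI -- (PSI-b): separation.  If two `σ`-fixed classes have unit invariants `ε, ε'` which
differ by a norm of a unit of `L`, then their quotient is (up to the norm ideal) the class of a
`G`-stable integral ideal.  No ramification hypothesis.
-/
import Fermat.Agent.S14.FirstInequality.Count
import Fermat.Agent.S14.FirstInequality.H90

set_option autoImplicit false

open NumberField nonZeroDivisors Module
open scoped Pointwise

namespace Fermat.Agent.S14.FI

variable {K L : Type*} [Field K] [NumberField K] [Field L] [NumberField L] [Algebra K L]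
  [IsGalois K L]

omit [NumberField K] [NumberField L] [IsGalois K L] in
theorem span_singleton_ne_zero' {x : 𝓞 L} (hx : x ≠ 0) : Ideal.span {x} ≠ (0 : Ideal (𝓞 L)) := by
  rwa [Ne, Ideal.zero_eq_bot, Ideal.span_singleton_eq_bot]

omit [IsGalois K L] in
/-- The field norm of (the image of) an algebraic integer. -/
theorem norm_coe_eq (x : 𝓞 L) :
    Algebra.norm K (x : L) = algebraMap (𝓞 K) K (Algebra.intNorm (𝓞 K) (𝓞 L) x) :=
  (Algebra.algebraMap_intNorm (A := 𝓞 K) (K := K) (L := L) (B := 𝓞 L) x).symm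

theorem psiSep {p : ℕ} (hp : p.Prime) (hdeg : finrank K L = p) (σ : L ≃ₐ[K] L) (hσ : σ ≠ 1) :
    PsiSepStatement K L σ p := by
  intro A A' x x' z z' ε ε' w hx hx' hz hz' h1 h2 hε hε' hw
  have hσp := UH.pow_finrank_eq_one hp hdeg σ
  have : FiniteDimensional K L := Module.finite_of_finrank_pos (by rw [hdeg]; exact hp.pos)
  -- the ideals
  set B : Ideal (𝓞 L) := ∏ i ∈ Finset.Ico 1 p, (σ ^ i) • (A : Ideal (𝓞 L)) with hB
  have hA0 : (A : Ideal (𝓞 L)) ≠ 0 := nonZeroDivisors.ne_zero A.2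
  have hsA0 : σ • (A : Ideal (𝓞 L)) ≠ 0 := by
    rw [Ne, Ideal.zero_eq_bot, smul_ideal_eq_bot_iff, ← Ideal.zero_eq_bot]
    exact hA0
  -- (♣) `σA * σB = A * B`
  have hclub : σ • (A : Ideal (𝓞 L)) * σ • B = (A : Ideal (𝓞 L)) * B := by
    have hP := smul_prod_range_pow_smul σ hσp (A : Ideal (𝓞 L))
    rw [Finset.range_eq_Ico, Finset.prod_eq_prod_Ico_succ_bot hp.pos, zero_add, pow_zero, one_smul,
      smul_ideal_mul] at hP
    exact hP
  -- step 2
  have hstep2 : Ideal.span {z * x'} * σ • ((A' : Ideal (𝓞 L)) * B) =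
      Ideal.span {z' * x} * ((A' : Ideal (𝓞 L)) * B) := by
    apply mul_right_cancel₀ hsA0
    rw [smul_ideal_mul, ← Ideal.span_singleton_mul_span_singleton,
      ← Ideal.span_singleton_mul_span_singleton]
    calc Ideal.span {z} * Ideal.span {x'} * (σ • (A' : Ideal (𝓞 L)) * σ • B) * σ • (A : Ideal (𝓞 L))
        = (Ideal.span {z} * σ • (A' : Ideal (𝓞 L))) * Ideal.span {x'} *
            (σ • (A : Ideal (𝓞 L)) * σ • B) := by ring
      _ = (Ideal.span {z'} * (A' : Ideal (𝓞 L))) * (Ideal.span {x'} * (A : Ideal (𝓞 L))) * B := by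
          rw [h2, hclub]; ring
      _ = (Ideal.span {z'} * (A' : Ideal (𝓞 L))) * (Ideal.span {x} * σ • (A : Ideal (𝓞 L))) * B := by
          rw [h1]
      _ = Ideal.span {z'} * Ideal.span {x} * ((A' : Ideal (𝓞 L)) * B) * σ • (A : Ideal (𝓞 L)) := by
          ring
  -- step 3: the norm computation
  have hxL : (x : L) ≠ 0 := by
    rwa [Ne, RingOfIntegers.coe_eq_zero_iff]
  have hx'L : (x' : L) ≠ 0 := by
    rwa [Ne, RingOfIntegers.coe_eq_zero_iff]
  have hzL : (z : L) ≠ 0 := by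
    rwa [Ne, RingOfIntegers.coe_eq_zero_iff]
  have hz'L : (z' : L) ≠ 0 := by
    rwa [Ne, RingOfIntegers.coe_eq_zero_iff]
  have hwL : (((w : (𝓞 L)ˣ) : 𝓞 L) : L) ≠ 0 := by
    rw [Ne, RingOfIntegers.coe_eq_zero_iff]
    exact w.ne_zero
  set y : L := ((z' : L) * (x : L)) / ((z : L) * (x' : L) * (((w : (𝓞 L)ˣ) : 𝓞 L) : L)) with hy
  -- `ε' = ε * N(w)` in `K`
  have hwK : ((ε' : 𝓞 K) : K) = ((ε : 𝓞 K) : K) * Algebra.norm K ((((w : (𝓞 L)ˣ) : 𝓞 L)) : L) := by
    apply (algebraMap K L).injective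
    rw [map_mul, ← UH.coe_coe_baseUnits, ← UH.coe_coe_baseUnits, ← UH.coe_coe_unitNrm hp hdeg σ hσ, hw]
    simp
  have hnormy : Algebra.norm K y = 1 := by
    rw [hy, div_eq_mul_inv, map_mul, Algebra.norm_inv, ← div_eq_mul_inv, map_mul, map_mul, map_mul,
      norm_coe_eq z', norm_coe_eq x, norm_coe_eq z, norm_coe_eq x', hε, hε', map_mul, map_mul]
    have hnx : algebraMap (𝓞 K) K (Algebra.intNorm (𝓞 K) (𝓞 L) x) ≠ 0 := by
      rw [← norm_coe_eq, Ne, Algebra.norm_eq_zero_iff]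
      exact hxL
    have hnz : algebraMap (𝓞 K) K (Algebra.intNorm (𝓞 K) (𝓞 L) z) ≠ 0 := by
      rw [← norm_coe_eq, Ne, Algebra.norm_eq_zero_iff]
      exact hzL
    have hnw : Algebra.norm K ((((w : (𝓞 L)ˣ) : 𝓞 L)) : L) ≠ 0 := by
      rw [Ne, Algebra.norm_eq_zero_iff]
      exact hwL
    have hεK : ((ε : 𝓞 K) : K) ≠ 0 := by
      rw [Ne, RingOfIntegers.coe_eq_zero_iff]
      exact ε.ne_zero
    change (((ε' : 𝓞 K) : K) * _ * _) / (_ * (((ε : 𝓞 K) : K) * _) * _) = 1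
    rw [hwK]
    field_simp
  have hprod : ∏ i ∈ Finset.range p, (σ ^ i) y = 1 := by
    rw [UH.prod_pow_eq_norm hp hdeg σ hσ, hnormy, map_one]
  obtain ⟨t, ht0, ht⟩ := int_hilbert90 hp hdeg σ hσ y hprod
  -- (♠) in `𝓞 L`
  have hspade : z' * x * σ • t = z * x' * (w : 𝓞 L) * t := by
    apply RingOfIntegers.ext
    have h3 : ((σ • t : 𝓞 L) : L) = σ (t : L) := rfl
    simp only [map_mul, h3]
    rw [hy, div_mul_eq_mul_div, div_eq_iff (mul_ne_zero (mul_ne_zero hzL hx'L) hwL)] at ht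
    rw [ht]
    ring
  -- step 5
  have hzx' : Ideal.span {z * x'} ≠ (0 : Ideal (𝓞 L)) := span_singleton_ne_zero' (mul_ne_zero hz hx')
  have hstep5 : σ • (Ideal.span {t} * ((A' : Ideal (𝓞 L)) * B)) =
      Ideal.span {t} * ((A' : Ideal (𝓞 L)) * B) := by
    rw [smul_ideal_mul, smul_ideal_span_singleton]
    apply mul_left_cancel₀ hzx'
    calc Ideal.span {z * x'} * (Ideal.span {σ • t} * σ • ((A' : Ideal (𝓞 L)) * B))
        = Ideal.span {σ • t} * (Ideal.span {z * x'} * σ • ((A' : Ideal (𝓞 L)) * B)) := by ring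
      _ = Ideal.span {σ • t} * Ideal.span {z' * x} * ((A' : Ideal (𝓞 L)) * B) := by
          rw [hstep2]; ring
      _ = Ideal.span {z' * x * σ • t} * ((A' : Ideal (𝓞 L)) * B) := by
          rw [Ideal.span_singleton_mul_span_singleton, mul_comm (σ • t)]
      _ = Ideal.span {z * x' * t} * ((A' : Ideal (𝓞 L)) * B) := by
          rw [hspade]
          congr 1
          rw [Ideal.span_singleton_eq_span_singleton]
          refine ⟨w⁻¹, ?_⟩
          have : (w : 𝓞 L) * ((w⁻¹ : (𝓞 L)ˣ) : 𝓞 L) = 1 := by simp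
          calc z * x' * (w : 𝓞 L) * t * ((w⁻¹ : (𝓞 L)ˣ) : 𝓞 L)
              = z * x' * t * ((w : 𝓞 L) * ((w⁻¹ : (𝓞 L)ˣ) : 𝓞 L)) := by ring
            _ = z * x' * t := by rw [this, mul_one]
      _ = Ideal.span {z * x'} * (Ideal.span {t} * ((A' : Ideal (𝓞 L)) * B)) := by
          rw [← Ideal.span_singleton_mul_span_singleton]; ring
  -- assemble
  let T : (Ideal (𝓞 L))⁰ := ⟨Ideal.span {t}, mem_nonZeroDivisors_of_ne_zero
    (span_singleton_ne_zero' ht0)⟩
  let Bm : (Ideal (𝓞 L))⁰ := ∏ i ∈ Finset.Ico 1 p, smul0 (σ ^ i) A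
  have hBm : (Bm : Ideal (𝓞 L)) = B := by
    rw [Submonoid.coe_finsetProd]
    rfl
  refine ⟨T * (A' * Bm), ?_, ?_⟩
  · apply forall_smul_eq_of_smul_eq hp hdeg σ hσ
    rw [Submonoid.coe_mul, Submonoid.coe_mul, hBm]
    exact hstep5
  · rw [map_mul, map_mul, map_prod]
    have hT : ClassGroup.mk0 T = 1 := by
      rw [ClassGroup.mk0_eq_one_iff T.2]
      exact ⟨⟨t, rfl⟩⟩
    rw [hT, one_mul]

end Fermat.Agent.S14.FI
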